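import Fermat.Agent.S15.W.ModLevel

/-!
# S15 / W : everything the other parts (B, C, D, F) need: `import Fermat.Agent.S15.W.Interface`

* `Defs.lean`   : `UnitOn`, `evalD`, `Disj`, `IsDm`, `Dv`, `E`, `e1`, `e1K`
* `Eval.lean`   : calculus of `evalD`
* `Recip.lean`  : `weil_reciprocity`
* `Pair.lean`   : `e1_eq_E`, `e1_eq_of_divisors`, bimultiplicativity, antisymmetry, `e1_smul`
* `KumPair.lean`: the same on `S48.B1.Kum K F e`, `e1Hom`, `card_sq_le_of_isotropic`
* `Level.lean`  : `e1_of_mul`, `e1_pow_right`, `e1_pow_left` (varying `m`)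
* `Proj.lean`   : finite extensions: `val_norm`, `evalD_norm`, `e1_proj`
* `Nondeg.lean` : `e1K_nondeg`
* `Mod.lean`    : `e1N` on `ES.Kum N e`: `e1N_gal`, `e1N_pullA`, `e1N_wKum`, `e1N_hecke`, `e1N_nondeg`
* `ModLevel.lean`: `e1N_trans`, `e1N_incl_right`, `e1N_incl_left`
-/
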