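import Fermat.Agent.S15.W.Nondeg
import Fermat.Agent.SS.Formal.Norm
import Fermat.Agent.S37.Mod.Inst

/-!
# S15 / W / Mod : the Weil pairing on `ES.Kum N e = J₀(N)[e]`

`e1N a b : ℚ̄`.  Galois equivariance, adjunction `pullA ⊣ nmKum`, invariance under Atkin-Lehner, `T_ℓ` selfadjoint for EVERY prime `ℓ ∤ N`
(`ℓ = e` included), non degeneracy.

* `ES.Kum N e` and `S48.B1.Kum Qb (FF N) e` are the same type (`toB1 = AddEquiv.refl`), `ES.Kum.mk f = S48.B1.Kum.mk f` by `rfl`.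
* `galKum N e σ = Kum.semi (arithmeticGalois (modularFunctionFieldFull N) σ)`, whose `baseAut` is `σ`.
* `T_ℓ = nmKum ∘ pullB` (`ES.heckeSer_eq_heckeNorm`);
  `e1N (nm (pullB a)) b = e1N (pullB a) (pullA b)` (projection formula + antisymmetry) `= e1N (w (pullB a)) (w (pullA b)) = e1N (pullA a) (pullB b) = e1N a (nm (pullB b))`.
-/

set_option autoImplicit false

namespace Fermat.Agent.S15.W

open AlgebraicCurve ModularCurve Fermat.Agent.S26 Fermat.Agent.S37.Red Fermat.Agent.ES Fermat.Agent.SS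

/-- the identity. -/
noncomputable def toB1 (N e : ℕ) : ES.Kum N e ≃+ S48.B1.Kum Qb (FF N) e := AddEquiv.refl _

theorem toB1_mk {N e : ℕ} (f : ES.Dm N e) :
    toB1 N e (ES.Kum.mk f) = S48.B1.Kum.mk (K := Qb) (F := FF N) (m := e) ⟨f.1, f.2⟩ := rfl

variable {N e : ℕ} [NeZero N]

/-- **The Weil pairing on `J₀(N)[e]`.** -/
noncomputable def e1N (a b : ES.Kum N e) : Qb := e1K (toB1 N e a) (toB1 N e b)

/-! ### TASK S15/W-M1 (formal) -/

theorem e1N_mk (he : e ≠ 0) (f g : ES.Dm N e) :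
    e1N (ES.Kum.mk f) (ES.Kum.mk g) = e1 Qb e ((f : (FF N)ˣ) : FF N) ((g : (FF N)ˣ) : FF N) := by
  exact e1K_mk (K := Qb) (F := FF N) he ⟨f.1, f.2⟩ ⟨g.1, g.2⟩

theorem e1N_pow (he : e ≠ 0) (a b : ES.Kum N e) : e1N a b ^ e = 1 :=
  e1K_pow he _ _

theorem e1N_ne_zero (he : e ≠ 0) (a b : ES.Kum N e) : e1N a b ≠ 0 :=
  e1K_ne_zero he _ _

theorem e1N_add_left (he : e ≠ 0) (a a' b : ES.Kum N e) : e1N (a + a') b = e1N a b * e1N a' b := by
  unfold e1N
  rw [map_add]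
  exact e1K_add_left he _ _ _

theorem e1N_add_right (he : e ≠ 0) (a b b' : ES.Kum N e) : e1N a (b + b') = e1N a b * e1N a b' := by
  unfold e1N
  rw [map_add]
  exact e1K_add_right he _ _ _

theorem e1N_symm (he : e ≠ 0) (a b : ES.Kum N e) : e1N b a = (e1N a b)⁻¹ :=
  e1K_symm he _ _

theorem e1N_self_of_odd (he : Odd e) (a : ES.Kum N e) : e1N a a = 1 :=
  e1K_self_of_odd he _

/-- the pairing as a bi-additive map. -/
noncomputable def e1NHom (he : e ≠ 0) : ES.Kum N e →+ ES.Kum N e →+ Additive Qbˣ :=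
  ((e1Hom (K := Qb) (F := FF N) he).comp (toB1 N e).toAddMonoidHom).compr₂
    (AddMonoidHom.id _) |>.flip.comp (toB1 N e).toAddMonoidHom |>.flip

theorem e1NHom_apply (he : e ≠ 0) (a b : ES.Kum N e) :
    (((e1NHom he a b).toMul : Qbˣ) : Qb) = e1N a b := rfl

/-- non degeneracy. -/
theorem e1N_nondeg (he : e.Prime) {a : ES.Kum N e} (ha : a ≠ 0) : ∃ b : ES.Kum N e, e1N a b ≠ 1 := by
  have ha' : toB1 N e a ≠ 0 := by
    intro h
    exact ha ((toB1 N e).map_eq_zero_iff.1 h)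
  have halg : Algebra.IsAlgebraic ℚ (AlgebraicClosure ℚ) :=
    (inferInstance : @Algebra.IsAlgebraic ℚ (AlgebraicClosure ℚ) _ _
      (AlgebraicClosure.instAlgebra ℚ))
  obtain ⟨b, hb⟩ := e1K_nondeg he
    ((IsAlgClosed.lift : AlgebraicClosure ℚ →ₐ[ℚ] ℂ) : AlgebraicClosure ℚ →+* ℂ) ha'
  exact ⟨(toB1 N e).symm b, by unfold e1N; rwa [AddEquiv.apply_symm_apply]⟩

/-! ### TASK S15/W-M2 : Galois -/

theorem toB1_galKum (σ : GQ) (a : ES.Kum N e) :
    toB1 N e (galKum N e σ a)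
      = S48.B1.Kum.semi (arithmeticGalois (modularFunctionFieldFull N) σ) (toB1 N e a) := by
  obtain ⟨f, rfl⟩ := ES.Kum.mk_surjective a
  rfl

/-- **Galois equivariance**. -/
theorem e1N_gal (he : e ≠ 0) (σ : GQ) (a b : ES.Kum N e) :
    e1N (galKum N e σ a) (galKum N e σ b) = σ (e1N a b) := by
  unfold e1N
  rw [toB1_galKum, toB1_galKum, e1K_semi he, baseAut_arithmeticGalois]
  rfl

/-- with the cyclotomic character: if `σ ζ = ζ ^ n` for all `e`-th roots of unity. -/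
theorem e1N_gal_pow (he : e ≠ 0) (σ : GQ) {n : ℕ} (hn : ∀ ζ : Qb, ζ ^ e = 1 → σ ζ = ζ ^ n)
    (a b : ES.Kum N e) : e1N (galKum N e σ a) (galKum N e σ b) = e1N a b ^ n := by
  rw [e1N_gal he]
  exact hn _ (e1N_pow he a b)

/-! ### TASK S15/W-M3 : degeneracy maps, Atkin-Lehner, Hecke -/

section level

variable {M q : ℕ} [NeZero M] [NeZero q]

instance : NeZero (M * q) := ⟨Nat.mul_ne_zero (NeZero.ne M) (NeZero.ne q)⟩

theorem M3_isDm {N' : ℕ} (f : ES.Dm N' e) : IsDm Qb e ((f : (FF N')ˣ) : FF N') :=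
  ⟨(f : (FF N')ˣ).ne_zero, fun v => f.2 v⟩

theorem M3_e1_alpha (he : e ≠ 0) {f : FF M} {g : FF (M * q)} (hf : IsDm Qb e f)
    (hg : IsDm Qb e g) :
    e1 Qb e (heckeAlphaBar Qb M q f) g = e1 Qb e f (normA M q g) := by
  let _ := algebraAlong (heckeAlphaBar Qb M q)
  have := isScalarTower_along (heckeAlphaBar Qb M q)
  have : Module.Finite (FF M) (FF (M * q)) := finiteAlong_heckeAlpha M q
  exact e1_proj he hf hg

/-- the projection formula for `α`. -/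
theorem e1N_pullA (he : e ≠ 0) (a : ES.Kum M e) (b : ES.Kum (M * q) e) :
    e1N (pullA M q e a) b = e1N a (nmKum M q e b) := by
  obtain ⟨f, rfl⟩ := ES.Kum.mk_surjective a
  obtain ⟨g, rfl⟩ := ES.Kum.mk_surjective b
  rw [pullA_mk, nmKum_mk, e1N_mk he, e1N_mk he]
  exact M3_e1_alpha he (M3_isDm f) (M3_isDm g)

theorem e1N_wKum (he : e ≠ 0) {w : FF (M * q) →ₐ[Qb] FF (M * q)} (hw : IsAL M q w) (hq : q.Prime)
    (x y : ES.Kum (M * q) e) : e1N (wKum hw hq e x) (wKum hw hq e y) = e1N x y := by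
  obtain ⟨f, rfl⟩ := ES.Kum.mk_surjective x
  obtain ⟨g, rfl⟩ := ES.Kum.mk_surjective y
  rw [wKum_mk, wKum_mk, e1N_mk he, e1N_mk he]
  let wE : FF (M * q) ≃ₐ[Qb] FF (M * q) := AlgEquiv.ofAlgHom w w
    (AlgHom.ext fun z => hw.invol hq z) (AlgHom.ext fun z => hw.invol hq z)
  have h := e1_smul he (SemilinearAut.ofAlgAut wE) (M3_isDm f) (M3_isDm g)
  rw [SemilinearAut.baseAut_ofAlgAut] at h
  exact h

theorem wKum_pullA {w : FF (M * q) →ₐ[Qb] FF (M * q)} (hw : IsAL M q w) (hq : q.Prime)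
    (a : ES.Kum M e) : wKum hw hq e (pullA M q e a) = pullB M q e a := by
  obtain ⟨f, rfl⟩ := ES.Kum.mk_surjective a
  rw [pullA_mk, pullB_mk, wKum_mk]
  exact mk_congr (hw.alpha _)

theorem wKum_pullB {w : FF (M * q) →ₐ[Qb] FF (M * q)} (hw : IsAL M q w) (hq : q.Prime)
    (a : ES.Kum M e) : wKum hw hq e (pullB M q e a) = pullA M q e a := by
  obtain ⟨f, rfl⟩ := ES.Kum.mk_surjective a
  rw [pullA_mk, pullB_mk, wKum_mk]
  exact mk_congr (hw.beta _)

theorem heckeKum_eq (hq : q.Prime) (hqM : ¬ q ∣ M) (a : ES.Kum M e) :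
    heckeKum M q hq hqM e a = nmKum M q e (pullB M q e a) := by
  obtain ⟨f, rfl⟩ := ES.Kum.mk_surjective a
  rw [pullB_mk, nmKum_mk, heckeKum_mk]
  refine mk_congr (Subtype.ext ?_)
  exact heckeSer_eq_heckeNorm M q hq hqM _

/-- **`T_q` is selfadjoint** (every prime `q ∤ M`, `q = e` allowed). -/
theorem e1N_hecke (he : e ≠ 0) (hq : q.Prime) (hqM : ¬ q ∣ M) (a b : ES.Kum M e) :
    e1N (heckeKum M q hq hqM e a) b = e1N a (heckeKum M q hq hqM e b) := by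
  obtain ⟨w, hw⟩ := exists_isAL M q hq hqM
  rw [heckeKum_eq, heckeKum_eq, ← e1N_pullA he, e1N_symm he b, ← e1N_pullA he,
    ← e1N_symm he, ← e1N_wKum he hw hq, wKum_pullB, wKum_pullA]

end level

end Fermat.Agent.S15.W
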