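import Fermat.Agent.S15.W.Pair

/-!
# S15 / W / KumPair : the Weil pairing on `Kum K F e` (`S48.B1.Kum`; `ES.Kum N e` is the case `K = ℚ̄`, `F = FF N`)

All statements follow formally from `Pair.lean` (`Kum.mk_surjective`, `Kum.mk_eq_mk_iff`, `mk_rep`).
-/

set_option autoImplicit false

namespace Fermat.Agent.S15.W

open AlgebraicCurve Fermat.Agent.S26 Fermat.Agent.S37.Red Fermat.Agent.S48.B1

variable {K F : Type*} [Field K] [Field F] [Algebra K F] [IsAlgClosed K] [CharZero K] [FF1 K F]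
variable {e : ℕ}

/-! ### TASK S15/W-K1 -/

/-- the pairing can be computed with any representatives. -/
theorem e1K_mk (he : e ≠ 0) (f g : Dm K F e) :
    e1K (Kum.mk f) (Kum.mk g) = e1 K e ((f : Fˣ) : F) ((g : Fˣ) : F) := by
  obtain ⟨h, hh⟩ := (Kum.mk_eq_mk_iff _ _).1 (mk_rep (Kum.mk f))
  obtain ⟨h', hh'⟩ := (Kum.mk_eq_mk_iff _ _).1 (mk_rep (Kum.mk g))
  have e1' : (((rep (Kum.mk f) : Dm K F e) : Fˣ) : F) = ((f : Fˣ) : F) * (h : F) ^ e := by
    have : ((rep (Kum.mk f) : Dm K F e) : Fˣ) = (f : Fˣ) * h ^ e := by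
      rw [hh, mul_comm, inv_mul_cancel_right]
    rw [this, Units.val_mul, Units.val_pow_eq_pow_val]
  have e2' : (((rep (Kum.mk g) : Dm K F e) : Fˣ) : F) = ((g : Fˣ) : F) * (h' : F) ^ e := by
    have : ((rep (Kum.mk g) : Dm K F e) : Fˣ) = (g : Fˣ) * h' ^ e := by
      rw [hh', mul_comm, inv_mul_cancel_right]
    rw [this, Units.val_mul, Units.val_pow_eq_pow_val]
  have hg' : IsDm K e (((g : Fˣ) : F) * (h' : F) ^ e) := by
    rw [← e2']; exact isDm_coe _
  unfold e1K
  rw [e1', e2', e1_mul_pow_left he (isDm_coe f) hg' h.ne_zero,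
    e1_mul_pow_right he (isDm_coe f) (isDm_coe g) h'.ne_zero]

theorem e1K_ne_zero (he : e ≠ 0) (a b : Kum K F e) : e1K a b ≠ 0 := by
  exact e1_ne_zero he (isDm_coe _) (isDm_coe _)

theorem e1K_pow (he : e ≠ 0) (a b : Kum K F e) : e1K a b ^ e = 1 := by
  exact e1_pow he (isDm_coe _) (isDm_coe _)

theorem e1K_add_left (he : e ≠ 0) (a a' b : Kum K F e) : e1K (a + a') b = e1K a b * e1K a' b := by
  obtain ⟨f, rfl⟩ := Kum.mk_surjective a
  obtain ⟨f', rfl⟩ := Kum.mk_surjective a'
  obtain ⟨g, rfl⟩ := Kum.mk_surjective b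
  rw [← Kum.mk_mul, e1K_mk he, e1K_mk he, e1K_mk he, Subgroup.coe_mul, Units.val_mul]
  exact e1_mul_left he (isDm_coe f) (isDm_coe f') (isDm_coe g)

theorem e1K_add_right (he : e ≠ 0) (a b b' : Kum K F e) : e1K a (b + b') = e1K a b * e1K a b' := by
  obtain ⟨f, rfl⟩ := Kum.mk_surjective a
  obtain ⟨g, rfl⟩ := Kum.mk_surjective b
  obtain ⟨g', rfl⟩ := Kum.mk_surjective b'
  rw [← Kum.mk_mul, e1K_mk he, e1K_mk he, e1K_mk he, Subgroup.coe_mul, Units.val_mul]
  exact e1_mul_right he (isDm_coe f) (isDm_coe g) (isDm_coe g')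

theorem e1K_zero_left (he : e ≠ 0) (b : Kum K F e) : e1K 0 b = 1 := by
  have h := e1K_add_left he 0 0 b
  rw [add_zero] at h
  exact (mul_eq_left₀ (e1K_ne_zero he 0 b)).1 h.symm

theorem e1K_zero_right (he : e ≠ 0) (a : Kum K F e) : e1K a 0 = 1 := by
  have h := e1K_add_right he a 0 0
  rw [add_zero] at h
  exact (mul_eq_left₀ (e1K_ne_zero he a 0)).1 h.symm

theorem e1K_neg_left (he : e ≠ 0) (a b : Kum K F e) : e1K (-a) b = (e1K a b)⁻¹ := by
  have h := e1K_add_left he (-a) a b
  rw [neg_add_cancel, e1K_zero_left he] at h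
  exact eq_inv_of_mul_eq_one_left h.symm

theorem e1K_neg_right (he : e ≠ 0) (a b : Kum K F e) : e1K a (-b) = (e1K a b)⁻¹ := by
  have h := e1K_add_right he a (-b) b
  rw [neg_add_cancel, e1K_zero_right he] at h
  exact eq_inv_of_mul_eq_one_left h.symm

theorem e1K_nsmul_left (he : e ≠ 0) (n : ℕ) (a b : Kum K F e) : e1K (n • a) b = e1K a b ^ n := by
  induction n with
  | zero => rw [zero_smul, pow_zero, e1K_zero_left he]
  | succ n ih => rw [succ_nsmul, e1K_add_left he, ih, pow_succ]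

theorem e1K_nsmul_right (he : e ≠ 0) (n : ℕ) (a b : Kum K F e) : e1K a (n • b) = e1K a b ^ n := by
  induction n with
  | zero => rw [zero_smul, pow_zero, e1K_zero_right he]
  | succ n ih => rw [succ_nsmul, e1K_add_right he, ih, pow_succ]

/-- antisymmetry. -/
theorem e1K_symm (he : e ≠ 0) (a b : Kum K F e) : e1K b a = (e1K a b)⁻¹ := by
  exact eq_inv_of_mul_eq_one_right (e1_mul_e1_symm he (isDm_coe _) (isDm_coe _))

theorem e1K_eq_one_comm (he : e ≠ 0) (a b : Kum K F e) : e1K a b = 1 ↔ e1K b a = 1 := by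
  rw [e1K_symm he a b, inv_eq_one]

theorem e1K_self_of_odd (he : Odd e) (a : Kum K F e) : e1K a a = 1 := by
  exact e1_self_of_odd he (isDm_coe _)

/-- semilinear automorphisms (Galois equivariance). -/
theorem e1K_semi (he : e ≠ 0) (σ : SemilinearAut K F) (a b : Kum K F e) :
    e1K (Kum.semi σ a) (Kum.semi σ b) = SemilinearAut.baseAut σ (e1K a b) := by
  obtain ⟨f, rfl⟩ := Kum.mk_surjective a
  obtain ⟨g, rfl⟩ := Kum.mk_surjective b
  rw [Kum.semi_mk, Kum.semi_mk, e1K_mk he, e1K_mk he]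
  exact e1_smul he σ (isDm_coe f) (isDm_coe g)

/-- the pairing as a bi-additive map with values in `Additive Kˣ`. -/
noncomputable def e1Hom (he : e ≠ 0) : Kum K F e →+ Kum K F e →+ Additive Kˣ :=
  AddMonoidHom.mk' (fun a => AddMonoidHom.mk' (fun b => Additive.ofMul (Units.mk0 _ (e1K_ne_zero he a b)))
    (fun b b' => by
      apply Additive.toMul.injective
      apply Units.ext
      exact e1K_add_right he a b b'))
    (fun a a' => by
      refine AddMonoidHom.ext fun b => ?_
      apply Additive.toMul.injective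
      refine Units.ext ?_
      exact e1K_add_left he a a' b)

theorem e1Hom_apply (he : e ≠ 0) (a b : Kum K F e) :
    (((e1Hom he a b).toMul : Kˣ) : K) = e1K a b := rfl

/-! ### TASK S15/W-K2 : isotropic subgroups (pure group theory)

`G` a finite abelian group, `β : G →+ G →+ M` bi-additive with values in an abelian group `M` whose `e`-torsion has at most `e` elements … we only
need the following form: `e` prime, `e • G = 0`, `M` such that `{m | e • m = 0}` has at most `e` elements (e.g. `Additive Kˣ`).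
If `β` is non degenerate on the subgroup `G₀` (`∀ a ∈ G₀, a ≠ 0 → ∃ b ∈ G₀, β a b ≠ 0`) and `H ≤ G₀` is isotropic then `#H ^ 2 ≤ #G₀`.
Proof: `G₀ → Hom(H, M[e])`, `b ↦ β(·, b)`, has kernel `H^⊥ ⊇ H`; it is ONTO `Hom(H, M[e])`-dimension count:
as `𝔽_e`-spaces, `a ↦ β(a, ·) : H → Hom(G₀/H^⊥, M[e])` is injective (non degeneracy), so `dim H ≤ dim G₀ - dim H^⊥ ≤ dim G₀ - dim H`. -/

theorem KP_finite_torsion {M : Type*} [AddCommGroup M] {e : ℕ}
    (hM : ∀ s : Finset M, (∀ m ∈ s, e • m = 0) → s.card ≤ e) :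
    Finite {m : M // e • m = 0} ∧ Nat.card {m : M // e • m = 0} ≤ e := by
  have hmap : ∀ t : Finset {m : M // e • m = 0}, t.card ≤ e := by
    intro t
    have := hM (t.map ⟨Subtype.val, Subtype.val_injective⟩) (by
      intro m hm
      rw [Finset.mem_map] at hm
      obtain ⟨x, -, rfl⟩ := hm
      exact x.2)
    rwa [Finset.card_map] at this
  have hfin : Finite {m : M // e • m = 0} := by
    by_contra hinf
    rw [not_finite_iff_infinite] at hinf
    obtain ⟨t, ht⟩ := Infinite.exists_subset_card_eq {m : M // e • m = 0} (e + 1)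
    have := hmap t
    omega
  refine ⟨hfin, ?_⟩
  have := Fintype.ofFinite {m : M // e • m = 0}
  rw [Nat.card_eq_fintype_card, ← Finset.card_univ]
  exact hmap _

theorem KP_card_hom_le_aux {X M : Type*} [AddCommGroup X] [Finite X] [AddCommGroup M] {e : ℕ}
    [Fact e.Prime] [Module (ZMod e) X] (hX : ∀ x : X, e • x = 0)
    (hM : ∀ s : Finset M, (∀ m ∈ s, e • m = 0) → s.card ≤ e) :
    Finite (X →+ M) ∧ Nat.card (X →+ M) ≤ Nat.card X := by
  obtain ⟨hT, hTc⟩ := KP_finite_torsion hM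
  let b := Module.finBasis (ZMod e) X
  let ev : (X →+ M) → (Fin (Module.finrank (ZMod e) X) → {m : M // e • m = 0}) :=
    fun f i => ⟨f (b i), by rw [← map_nsmul, hX, map_zero]⟩
  have hev : Function.Injective ev := by
    intro f g hfg
    have h1 : ∀ i, f (b i) = g (b i) := fun i => congrArg Subtype.val (congrFun hfg i)
    have h2 : (⊤ : Submodule (ZMod e) X) ≤ AddSubgroup.toZModSubmodule e (f.eqLocus g) := by
      rw [← b.span_eq, Submodule.span_le]
      rintro _ ⟨i, rfl⟩
      exact h1 i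
    ext x
    exact h2 (Submodule.mem_top (x := x))
  have hfin : Finite (X →+ M) := Finite.of_injective ev hev
  refine ⟨hfin, ?_⟩
  calc Nat.card (X →+ M) ≤ Nat.card (Fin (Module.finrank (ZMod e) X) → {m : M // e • m = 0}) :=
        Nat.card_le_card_of_injective ev hev
    _ = Nat.card {m : M // e • m = 0} ^ (Module.finrank (ZMod e) X) := by
        rw [Nat.card_fun, Nat.card_fin]
    _ ≤ e ^ Module.finrank (ZMod e) X := Nat.pow_le_pow_left hTc _
    _ = Nat.card X := by rw [Module.natCard_eq_pow_finrank (K := ZMod e), Nat.card_zmod]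

theorem KP_card_hom_le {X M : Type*} [AddCommGroup X] [Finite X] [AddCommGroup M] {e : ℕ}
    (he : e.Prime) (hX : ∀ x : X, e • x = 0)
    (hM : ∀ s : Finset M, (∀ m ∈ s, e • m = 0) → s.card ≤ e) :
    Finite (X →+ M) ∧ Nat.card (X →+ M) ≤ Nat.card X :=
  @KP_card_hom_le_aux X M _ _ _ e ⟨he⟩ (AddCommGroup.zmodModule hX) hX hM

theorem card_sq_le_of_isotropic {G M : Type*} [AddCommGroup G] [AddCommGroup M] {e : ℕ} (he : e.Prime)
    (hG : ∀ x : G, e • x = 0) (hM : ∀ s : Finset M, (∀ m ∈ s, e • m = 0) → s.card ≤ e)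
    (β : G →+ G →+ M) (G₀ H : AddSubgroup G) [Finite G₀] (hH : H ≤ G₀)
    (hnd : ∀ a ∈ G₀, a ≠ 0 → ∃ b ∈ G₀, β a b ≠ 0)
    (hiso : ∀ a ∈ H, ∀ b ∈ H, β a b = 0) :
    Nat.card H ^ 2 ≤ Nat.card G₀ := by
  let Φ : G₀ →+ (H →+ M) := AddMonoidHom.mk' (fun b : G₀ => (β.flip b).comp H.subtype) (by
    intro b b'
    ext a
    simp)
  have hΦ : ∀ (b : G₀) (a : H), Φ b a = β a b := fun b a => rfl
  have : Finite Φ.range := by
    have : Finite (Set.range Φ) := Set.finite_range Φ
    exact this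
  have hX : ∀ x : Φ.range, e • x = 0 := by
    rintro ⟨_, b, rfl⟩
    apply Subtype.ext
    rw [AddSubgroup.coe_nsmul, AddSubgroup.coe_zero, ← map_nsmul]
    have : e • b = 0 := Subtype.ext (by rw [AddSubgroup.coe_nsmul, hG]; rfl)
    rw [this, map_zero]
  obtain ⟨hfin, hcard⟩ := KP_card_hom_le he hX hM
  -- `H` injects into the dual of the range
  have h1 : Nat.card H ≤ Nat.card (Φ.range →+ M) := by
    refine Nat.card_le_card_of_injective
      (fun a : H => AddMonoidHom.mk' (fun χ : Φ.range => (χ : H →+ M) a) (by intro χ χ'; simp)) ?_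
    intro a a' haa
    by_contra hne
    have hne' : ((a - a' : H) : G) ≠ 0 := by
      intro h0
      apply hne
      have : a - a' = 0 := Subtype.ext h0
      exact sub_eq_zero.mp this
    obtain ⟨b, hb, hb'⟩ := hnd _ (hH (a - a').2) hne'
    apply hb'
    have h2 := DFunLike.congr_fun haa ⟨Φ ⟨b, hb⟩, ⟨b, hb⟩, rfl⟩
    have h3 : β a b = β a' b := h2
    rw [AddSubgroup.coe_sub, map_sub, AddMonoidHom.sub_apply, h3, sub_self]
  -- `H` injects into the kernel
  have h2 : Nat.card H ≤ Nat.card Φ.ker := by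
    refine Nat.card_le_card_of_injective
      (fun a : H => (⟨⟨a, hH a.2⟩, by
        rw [AddMonoidHom.mem_ker]
        ext a'
        exact hiso a' a'.2 a a.2⟩ : Φ.ker)) ?_
    intro a a' haa
    have := congrArg (fun x : Φ.ker => ((x : G₀) : G)) haa
    exact Subtype.ext this
  have h3 : Nat.card Φ.ker * Nat.card Φ.range = Nat.card G₀ := by
    rw [← AddSubgroup.index_ker, AddSubgroup.card_mul_index]
  calc Nat.card H ^ 2 = Nat.card H * Nat.card H := sq _
    _ ≤ Nat.card Φ.ker * Nat.card Φ.range := Nat.mul_le_mul h2 (h1.trans hcard)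
    _ = Nat.card G₀ := h3

/-- the hypothesis `hM` for `M = Additive Kˣ`. -/
theorem card_torsion_units_le {e : ℕ} (he : e ≠ 0) (s : Finset (Additive Kˣ))
    (hs : ∀ m ∈ s, e • m = 0) : s.card ≤ e := by
  classical
  have h1 : s.card ≤ (Polynomial.nthRoots e (1 : K)).toFinset.card := by
    refine Finset.card_le_card_of_injOn (fun m => ((Additive.toMul m : Kˣ) : K)) ?_ ?_
    · intro m hm
      rw [Finset.mem_coe, Multiset.mem_toFinset, Polynomial.mem_nthRoots (Nat.pos_of_ne_zero he)]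
      have h2 : (Additive.toMul m) ^ e = 1 := by
        have := congrArg Additive.toMul (hs m hm)
        simpa using this
      rw [← Units.val_pow_eq_pow_val, h2, Units.val_one]
    · intro a _ b _ hab
      exact Additive.toMul.injective (Units.ext hab)
  exact h1.trans ((Multiset.toFinset_card_le _).trans (Polynomial.card_nthRoots e 1))

end Fermat.Agent.S15.W
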