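import Fermat.Agent.S37.Red.Val
import Fermat.Agent.S48.B1.Kum

/-!
# S15 / W : evaluation of functions on divisors and the Weil pairing: DEFINITIONS (sorry-free)

`K` algebraically closed, `F/K` a function field (`S26.FF1`), places / divisors of the Prelude,
values `val v f` of `S37/Red/Val`.

* `UnitOn f D`   : `f ≠ 0` and `f` has neither zero nor pole on the support of `D`;
* `evalD f D`    : `f(D) = ∏_v f(v) ^ D(v)`  (only meaningful if `UnitOn f D`);
* `Disj f g`     : `div f` and `div g` have disjoint supports;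
* `IsDm e f`     : `f ≠ 0` and `e ∣ ord_v f` for all `v`;
* `Dv e f`       : the divisor `(div f) / e`;
* `E e f g`      : `f(D_g) / g(D_f)`  (only meaningful if `Disj f g`);
* `mv e f g`     : a chosen `k ≠ 0` such that `g k ^ e` is disjoint from `f`;
* `e1 e f g`     : the Weil pairing of the classes of `f, g` (`= E e f (g k ^ e)`), for ALL `f g` in `Dm`;
* `e1K a b`      : the same on `S48.B1.Kum K F e` (`ES.Kum N e` is the case `K = ℚ̄`, `F = FF N`).
-/

set_option autoImplicit false

namespace Fermat.Agent.S15.W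

open AlgebraicCurve Fermat.Agent.S26 Fermat.Agent.S37.Red

variable {K F : Type*} [Field K] [Field F] [Algebra K F]

/-- `f ≠ 0` has neither zero nor pole on the support of `D`. -/
def UnitOn (f : F) (D : Divisor K F) : Prop := f ≠ 0 ∧ ∀ v : Place K F, D v ≠ 0 → v.ord f = 0

/-- `f(D) = ∏_v f(v) ^ D(v)`. -/
noncomputable def evalD (f : F) (D : Divisor K F) : K := D.prod fun v n => val v f ^ n

/-- `div f` and `div g` have disjoint supports. -/
def Disj (K : Type*) {F : Type*} [Field K] [Field F] [Algebra K F] (f g : F) : Prop :=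
  ∀ v : Place K F, v.ord f = 0 ∨ v.ord g = 0

/-- `f ≠ 0` and `e ∣ div f`. -/
def IsDm (K : Type*) {F : Type*} [Field K] [Field F] [Algebra K F] (e : ℕ) (f : F) : Prop :=
  f ≠ 0 ∧ ∀ v : Place K F, (e : ℤ) ∣ v.ord f

/-- the divisor `(div f) / e`. -/
noncomputable def Dv (K : Type*) {F : Type*} [Field K] [Field F] [Algebra K F] [FF1 K F]
    (e : ℕ) (f : F) : Divisor K F :=
  (divisorOf (Ω := K) f).mapRange (fun n => n / (e : ℤ)) (by simp)

@[simp] theorem Dv_apply [FF1 K F] (e : ℕ) (f : F) (v : Place K F) :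
    Dv K e f v = v.ord f / (e : ℤ) := by
  rw [Dv, Finsupp.mapRange_apply, divisorOf_apply]

/-- `f(D_g) / g(D_f)`. -/
noncomputable def E (K : Type*) {F : Type*} [Field K] [Field F] [Algebra K F] [FF1 K F]
    (e : ℕ) (f g : F) : K :=
  evalD f (Dv K e g) / evalD g (Dv K e f)

open Classical in
/-- a chosen `k ≠ 0` with `g k ^ e` disjoint from `f`. -/
noncomputable def mv (K : Type*) {F : Type*} [Field K] [Field F] [Algebra K F]
    (e : ℕ) (f g : F) : F :=
  if h : ∃ k : F, k ≠ 0 ∧ Disj K f (g * k ^ e) then h.choose else 1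

/-- **The Weil pairing** on functions `f, g ∈ Dm`. -/
noncomputable def e1 (K : Type*) {F : Type*} [Field K] [Field F] [Algebra K F] [FF1 K F]
    (e : ℕ) (f g : F) : K :=
  E K e f (g * mv K e f g ^ e)

open Fermat.Agent.S48.B1 in
/-- a representative of a Kummer class. -/
noncomputable def rep {e : ℕ} (a : Kum K F e) : Dm K F e := (Kum.mk_surjective a).choose

open Fermat.Agent.S48.B1 in
theorem mk_rep {e : ℕ} (a : Kum K F e) : Kum.mk (rep a) = a := (Kum.mk_surjective a).choose_spec

open Fermat.Agent.S48.B1 in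
/-- **The Weil pairing** on the Kummer module `Kum K F e = Pic⁰(F)[e]`. -/
noncomputable def e1K [FF1 K F] {e : ℕ} (a b : Kum K F e) : K :=
  e1 K e (((rep a : Dm K F e) : Fˣ) : F) (((rep b : Dm K F e) : Fˣ) : F)

open Fermat.Agent.S48.B1 in
theorem isDm_coe {e : ℕ} (f : Dm K F e) : IsDm K e (((f : Dm K F e) : Fˣ) : F) :=
  ⟨(f : Fˣ).ne_zero, fun v => f.2 v⟩

end Fermat.Agent.S15.W
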