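import Fermat.Agent.S15.W.Defs
import Fermat.Agent.S26.FF.Degree

/-!
# S15 / W / Eval : elementary properties of `UnitOn`, `evalD`, `Disj`, `Dv`

Everything here is bookkeeping with `Finsupp.prod`, `zpow` in the field `K` and `S37.Red.val_mul`, `val_inv`, `val_smul`.
Useful: `Finsupp.prod_add_index'`-type lemmas need `a ^ (m + n) = a ^ m * a ^ n`, i.e. `a ≠ 0` (`zpow_add₀`): use
`Finsupp.prod_add_index` (with the membership hypothesis) or rewrite `evalD` as a product over a common finite superset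
(`Finsupp.prod_of_support_subset`).
-/

set_option autoImplicit false

namespace Fermat.Agent.S15.W

open AlgebraicCurve Fermat.Agent.S26 Fermat.Agent.S37.Red

variable {K F : Type*} [Field K] [Field F] [Algebra K F]

/-! ### TASK S15/W-Eval-a : `UnitOn`, `Disj` (no `val`) -/

theorem unitOn_zero {f : F} (hf : f ≠ 0) : UnitOn f (0 : Divisor K F) := by
  exact ⟨hf, fun v hv => absurd (Finsupp.zero_apply) hv⟩

theorem UnitOn.add {f : F} {D D' : Divisor K F} (h : UnitOn f D) (h' : UnitOn f D') :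
    UnitOn f (D + D') := by
  refine ⟨h.1, fun v hv => ?_⟩
  by_cases h0 : D v = 0
  · refine h'.2 v fun h1 => hv ?_
    rw [Finsupp.add_apply, h0, h1, add_zero]
  · exact h.2 v h0

theorem UnitOn.neg {f : F} {D : Divisor K F} (h : UnitOn f D) : UnitOn f (-D) := by
  refine ⟨h.1, fun v hv => h.2 v fun h0 => hv ?_⟩
  rw [Finsupp.neg_apply, h0, neg_zero]

theorem UnitOn.sub {f : F} {D D' : Divisor K F} (h : UnitOn f D) (h' : UnitOn f D') :
    UnitOn f (D - D') := by
  rw [sub_eq_add_neg]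
  exact h.add h'.neg

theorem UnitOn.zsmul {f : F} {D : Divisor K F} (h : UnitOn f D) (n : ℤ) : UnitOn f (n • D) := by
  refine ⟨h.1, fun v hv => h.2 v fun h0 => hv ?_⟩
  rw [Finsupp.smul_apply, h0, smul_zero]

theorem unitOn_single {f : F} (hf : f ≠ 0) {v : Place K F} (hv : v.ord f = 0) (n : ℤ) :
    UnitOn f (Finsupp.single v n : Divisor K F) := by
  classical
  refine ⟨hf, fun w hw => ?_⟩
  by_cases hvw : v = w
  · rw [← hvw]; exact hv
  · exact absurd (Finsupp.single_eq_of_ne' hvw) hw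

theorem UnitOn.mul {f g : F} {D : Divisor K F} (hf : UnitOn f D) (hg : UnitOn g D) :
    UnitOn (f * g) D := by
  refine ⟨mul_ne_zero hf.1 hg.1, fun v hv => ?_⟩
  rw [v.ord_mul hf.1 hg.1, hf.2 v hv, hg.2 v hv, add_zero]

theorem UnitOn.inv {f : F} {D : Divisor K F} (hf : UnitOn f D) : UnitOn f⁻¹ D := by
  refine ⟨inv_ne_zero hf.1, fun v hv => ?_⟩
  rw [v.ord_inv, hf.2 v hv, neg_zero]

theorem UnitOn.div {f g : F} {D : Divisor K F} (hf : UnitOn f D) (hg : UnitOn g D) :
    UnitOn (f / g) D := by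
  rw [div_eq_mul_inv]
  exact hf.mul hg.inv

theorem UnitOn.pow {f : F} {D : Divisor K F} (hf : UnitOn f D) (n : ℕ) : UnitOn (f ^ n) D := by
  refine ⟨pow_ne_zero n hf.1, fun v hv => ?_⟩
  rw [← zpow_natCast, v.ord_zpow, hf.2 v hv, mul_zero]

theorem unitOn_algebraMap {c : K} (hc : c ≠ 0) (D : Divisor K F) : UnitOn (algebraMap K F c) D := by
  exact ⟨(map_ne_zero (algebraMap K F)).2 hc, fun v _ => Fermat.Agent.S24.FF.ord_algebraMap v c⟩

theorem UnitOn.smul {f : F} {D : Divisor K F} (h : UnitOn f D) (σ : SemilinearAut K F) :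
    UnitOn (σ • f) (σ • D) := by
  refine ⟨by simpa using h.1, fun v hv => ?_⟩
  rw [SemilinearAut.divisor_smul_apply] at hv
  have h1 := SemilinearAut.ord_smul σ (σ⁻¹ • v) f
  rw [smul_inv_smul] at h1
  rw [h1]
  exact h.2 _ hv

theorem Disj.symm {f g : F} (h : Disj K f g) : Disj K g f := fun v => (h v).symm

theorem Disj.mul_right {f g g' : F} (hg : g ≠ 0) (hg' : g' ≠ 0) (h : Disj K f g) (h' : Disj K f g') :
    Disj K f (g * g') := by
  intro v
  rcases h v with h1 | h1
  · exact Or.inl h1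
  rcases h' v with h2 | h2
  · exact Or.inl h2
  · right
    rw [v.ord_mul hg hg', h1, h2, add_zero]

theorem Disj.inv_right {f g : F} (h : Disj K f g) : Disj K f g⁻¹ := by
  intro v
  rcases h v with h1 | h1
  · exact Or.inl h1
  · right
    rw [v.ord_inv, h1, neg_zero]

theorem Disj.smul {f g : F} (h : Disj K f g) (σ : SemilinearAut K F) : Disj K (σ • f) (σ • g) := by
  intro v
  have h1 := SemilinearAut.ord_smul σ (σ⁻¹ • v) f
  have h2 := SemilinearAut.ord_smul σ (σ⁻¹ • v) g
  rw [smul_inv_smul] at h1 h2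
  rw [h1, h2]
  exact h _

theorem unitOn_divisorOf [FF1 K F] {f g : F} (hf : f ≠ 0) (h : Disj K f g) :
    UnitOn f (divisorOf (Ω := K) g) := by
  refine ⟨hf, fun v hv => ?_⟩
  rw [divisorOf_apply] at hv
  exact (h v).resolve_right hv

theorem unitOn_Dv [FF1 K F] {f g : F} (hf : f ≠ 0) (h : Disj K f g) (e : ℕ) :
    UnitOn f (Dv K e g) := by
  refine ⟨hf, fun v hv => ?_⟩
  rw [Dv_apply] at hv
  refine (h v).resolve_right fun h0 => hv ?_
  rw [h0, Int.zero_ediv]

/-- `e • D_f = div f`. -/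
theorem nsmul_Dv [FF1 K F] {e : ℕ} {f : F} (hf : IsDm K e f) :
    (e : ℤ) • Dv K e f = divisorOf (Ω := K) f := by
  ext v
  rw [Finsupp.smul_apply, Dv_apply, divisorOf_apply, smul_eq_mul]
  exact Int.mul_ediv_cancel' (hf.2 v)

/-- uniqueness of `D_f`. -/
theorem eq_Dv [FF1 K F] {e : ℕ} (he : e ≠ 0) {f : F} {D : Divisor K F}
    (h : (e : ℤ) • D = divisorOf (Ω := K) f) : D = Dv K e f := by
  ext v
  have h1 := DFunLike.congr_fun h v
  rw [Finsupp.smul_apply, divisorOf_apply, smul_eq_mul] at h1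
  rw [Dv_apply, ← h1]
  exact (Int.mul_ediv_cancel_left _ (Int.natCast_ne_zero.2 he)).symm

theorem Dv_mul [FF1 K F] {e : ℕ} {f g : F} (hf : IsDm K e f) (hg : IsDm K e g) :
    Dv K e (f * g) = Dv K e f + Dv K e g := by
  ext v
  rw [Finsupp.add_apply, Dv_apply, Dv_apply, Dv_apply, v.ord_mul hf.1 hg.1]
  exact Int.add_ediv_of_dvd_left (hf.2 v)

theorem Dv_mul_pow [FF1 K F] {e : ℕ} (he : e ≠ 0) {g k : F} (hg : IsDm K e g) (hk : k ≠ 0) :
    Dv K e (g * k ^ e) = Dv K e g + divisorOf (Ω := K) k := by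
  ext v
  rw [Finsupp.add_apply, Dv_apply, Dv_apply, divisorOf_apply, v.ord_mul hg.1 (pow_ne_zero e hk),
    ← zpow_natCast, v.ord_zpow, Int.add_ediv_of_dvd_left (hg.2 v),
    Int.mul_ediv_cancel_left _ (Int.natCast_ne_zero.2 he)]

theorem degree_Dv [FF1 K F] {e : ℕ} (he : e ≠ 0) {f : F} (hf : IsDm K e f) :
    Divisor.degree (Dv K e f) = 0 := by
  have h1 := congrArg Divisor.degree (nsmul_Dv hf)
  rw [degree_divisorOf, map_zsmul, smul_eq_mul] at h1
  exact (mul_eq_zero.1 h1).resolve_left (Int.natCast_ne_zero.2 he)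

theorem Dv_smul [FF1 K F] (e : ℕ) (f : F) (σ : SemilinearAut K F) :
    Dv K e (σ • f) = σ • Dv K e f := by
  ext v
  have h1 := SemilinearAut.ord_smul σ (σ⁻¹ • v) f
  rw [smul_inv_smul] at h1
  rw [SemilinearAut.divisor_smul_apply, Dv_apply, Dv_apply, h1]

theorem IsDm.mul {e : ℕ} {f g : F} (hf : IsDm K e f) (hg : IsDm K e g) : IsDm K e (f * g) := by
  refine ⟨mul_ne_zero hf.1 hg.1, fun v => ?_⟩
  rw [v.ord_mul hf.1 hg.1]
  exact dvd_add (hf.2 v) (hg.2 v)

theorem IsDm.inv {e : ℕ} {f : F} (hf : IsDm K e f) : IsDm K e f⁻¹ := by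
  refine ⟨inv_ne_zero hf.1, fun v => ?_⟩
  rw [v.ord_inv]
  exact (dvd_neg).2 (hf.2 v)

theorem isDm_pow (e : ℕ) {k : F} (hk : k ≠ 0) : IsDm K e (k ^ e) := by
  refine ⟨pow_ne_zero e hk, fun v => ?_⟩
  rw [← zpow_natCast, v.ord_zpow]
  exact dvd_mul_right _ _

theorem isDm_algebraMap (e : ℕ) {c : K} (hc : c ≠ 0) : IsDm K e (algebraMap K F c) := by
  refine ⟨(map_ne_zero (algebraMap K F)).2 hc, fun v => ?_⟩
  rw [Fermat.Agent.S24.FF.ord_algebraMap]
  exact dvd_zero _

theorem IsDm.smul {e : ℕ} {f : F} (hf : IsDm K e f) (σ : SemilinearAut K F) : IsDm K e (σ • f) := by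
  refine ⟨by simpa using hf.1, fun v => ?_⟩
  have h1 := SemilinearAut.ord_smul σ (σ⁻¹ • v) f
  rw [smul_inv_smul] at h1
  rw [h1]
  exact hf.2 _

/-! ### TASK S15/W-Eval-b : `evalD` -/

@[simp] theorem evalD_zero (f : F) : evalD f (0 : Divisor K F) = 1 := by
  exact Finsupp.prod_zero_index

@[simp] theorem evalD_single (f : F) (v : Place K F) (n : ℤ) :
    evalD f (Finsupp.single v n : Divisor K F) = val v f ^ n := by
  exact Finsupp.prod_single_index (zpow_zero _)

theorem evalD_eq_finprod (f : F) (D : Divisor K F) : evalD f D = ∏ᶠ v : Place K F, val v f ^ D v := by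
  rw [finprod_eq_prod_of_mulSupport_subset (s := D.support)]
  · rfl
  · intro v hv
    rw [Function.mem_mulSupport] at hv
    rw [Finset.mem_coe, Finsupp.mem_support_iff]
    intro h
    apply hv
    rw [h, zpow_zero]

theorem evalD_eq_prod (f : F) (D : Divisor K F) (s : Finset (Place K F)) (hs : D.support ⊆ s) :
    evalD f D = ∏ v ∈ s, val v f ^ D v := by
  exact Finsupp.prod_of_support_subset D hs _ (fun _ _ => zpow_zero _)

theorem evalD_neg (f : F) (D : Divisor K F) : evalD f (-D) = (evalD f D)⁻¹ := by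
  rw [evalD_eq_prod f (-D) D.support (by rw [Finsupp.support_neg]),
    evalD_eq_prod f D D.support subset_rfl, ← Finset.prod_inv_distrib]
  refine Finset.prod_congr rfl fun v _ => ?_
  rw [Finsupp.neg_apply, zpow_neg]

theorem evalD_zsmul (f : F) (D : Divisor K F) (n : ℤ) : evalD f (n • D) = evalD f D ^ n := by
  rw [evalD_eq_prod f (n • D) D.support Finsupp.support_smul,
    evalD_eq_prod f D D.support subset_rfl, ← Finset.prod_zpow]
  refine Finset.prod_congr rfl fun v _ => ?_
  rw [Finsupp.smul_apply, smul_eq_mul, mul_comm, zpow_mul]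

theorem evalD_smul (σ : SemilinearAut K F) (f : F) (D : Divisor K F) :
    evalD (σ • f) (σ • D) = SemilinearAut.baseAut σ (evalD f D) := by
  rw [evalD, SemilinearAut.divisor_smul_def,
    Finsupp.prod_mapDomain_index_inj (MulAction.injective σ), evalD, Finsupp.prod, Finsupp.prod,
    map_prod]
  refine Finset.prod_congr rfl fun v _ => ?_
  rw [Fermat.Agent.S37.Red.val_smul, map_zpow₀]

section AlgClosed

variable [IsAlgClosed K] [FF1 K F]

theorem val_ne_zero {f : F} (hf : f ≠ 0) {v : Place K F} (hv : v.ord f = 0) : val v f ≠ 0 := by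
  have hr : Reg v f := (reg_iff_ord v).2 hv.ge
  rw [Ne, val_eq_zero_iff v hr, van_iff_ord, not_or]
  exact ⟨hf, by omega⟩

theorem UnitOn.evalD_ne_zero {f : F} {D : Divisor K F} (h : UnitOn f D) : evalD f D ≠ 0 := by
  rw [evalD, Finsupp.prod, Finset.prod_ne_zero_iff]
  intro v hv
  exact zpow_ne_zero _ (val_ne_zero h.1 (h.2 v (Finsupp.mem_support_iff.1 hv)))

theorem evalD_add {f : F} {D D' : Divisor K F} (h : UnitOn f D) (h' : UnitOn f D') :
    evalD f (D + D') = evalD f D * evalD f D' := by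
  classical
  rw [evalD_eq_prod f (D + D') (D.support ∪ D'.support) Finsupp.support_add,
    evalD_eq_prod f D (D.support ∪ D'.support) Finset.subset_union_left,
    evalD_eq_prod f D' (D.support ∪ D'.support) Finset.subset_union_right,
    ← Finset.prod_mul_distrib]
  refine Finset.prod_congr rfl fun v hv => ?_
  have h0 : val v f ≠ 0 := by
    rcases Finset.mem_union.1 hv with hv | hv
    · exact val_ne_zero h.1 (h.2 v (Finsupp.mem_support_iff.1 hv))
    · exact val_ne_zero h'.1 (h'.2 v (Finsupp.mem_support_iff.1 hv))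
  rw [Finsupp.add_apply, zpow_add₀ h0]

theorem evalD_sub {f : F} {D D' : Divisor K F} (h : UnitOn f D) (h' : UnitOn f D') :
    evalD f (D - D') = evalD f D / evalD f D' := by
  rw [sub_eq_add_neg, evalD_add h h'.neg, evalD_neg, div_eq_mul_inv]

theorem evalD_mul {f g : F} {D : Divisor K F} (hf : UnitOn f D) (hg : UnitOn g D) :
    evalD (f * g) D = evalD f D * evalD g D := by
  rw [evalD, evalD, evalD, Finsupp.prod, Finsupp.prod, Finsupp.prod, ← Finset.prod_mul_distrib]
  refine Finset.prod_congr rfl fun v hv => ?_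
  have hv' := Finsupp.mem_support_iff.1 hv
  rw [val_mul v ((reg_iff_ord v).2 (hf.2 v hv').ge) ((reg_iff_ord v).2 (hg.2 v hv').ge), mul_zpow]

theorem evalD_inv {f : F} {D : Divisor K F} (hf : UnitOn f D) : evalD f⁻¹ D = (evalD f D)⁻¹ := by
  rw [evalD, evalD, Finsupp.prod, Finsupp.prod, ← Finset.prod_inv_distrib]
  refine Finset.prod_congr rfl fun v hv => ?_
  have hv' := Finsupp.mem_support_iff.1 hv
  rw [val_inv v ((reg_iff_ord v).2 (hf.2 v hv').ge), inv_zpow]

theorem evalD_div {f g : F} {D : Divisor K F} (hf : UnitOn f D) (hg : UnitOn g D) :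
    evalD (f / g) D = evalD f D / evalD g D := by
  rw [div_eq_mul_inv, evalD_mul hf hg.inv, evalD_inv hg, div_eq_mul_inv]

theorem evalD_pow {f : F} {D : Divisor K F} (hf : UnitOn f D) (n : ℕ) :
    evalD (f ^ n) D = evalD f D ^ n := by
  rw [evalD, evalD, Finsupp.prod, Finsupp.prod, ← Finset.prod_pow]
  refine Finset.prod_congr rfl fun v hv => ?_
  have hv' := Finsupp.mem_support_iff.1 hv
  rw [val_pow v ((reg_iff_ord v).2 (hf.2 v hv').ge), ← zpow_natCast, ← zpow_natCast, zpow_comm]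

/-- constants: `c(D) = c ^ deg D` (all places have degree one: `S26.deg_eq_one_of_isAlgClosed`). -/
theorem evalD_algebraMap {c : K} (hc : c ≠ 0) (D : Divisor K F) :
    evalD (algebraMap K F c) D = c ^ Divisor.degree D := by
  induction D using Finsupp.induction_linear with
  | zero => rw [evalD_zero, map_zero, zpow_zero]
  | add D D' ih ih' =>
    rw [evalD_add (unitOn_algebraMap hc D) (unitOn_algebraMap hc D'), ih, ih', map_add,
      zpow_add₀ hc]
  | single v n =>
    rw [evalD_single, val_algebraMap, Divisor.degree_single, deg_eq_one_of_isAlgClosed]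
    simp

end AlgClosed

end Fermat.Agent.S15.W
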