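import Fermat.Agent.S15.W.Interface
import Fermat.Agent.S15.F.Defs

/-!
# S15 / W / Export : `F.IsPairing` for the Weil pairing `e1NHom`

The literal shape consumed by Part F (`Fermat.Agent.S15.F.IsPairing`).
-/

set_option autoImplicit false

namespace Fermat.Agent.S15.W

open AlgebraicCurve ModularCurve Fermat.Agent.ES

theorem e1NHom_eq_zero_iff {N e : ℕ} [NeZero N] (he : e ≠ 0) (a b : ES.Kum N e) :
    e1NHom he a b = 0 ↔ e1N a b = 1 := by
  rw [← e1NHom_apply he a b]
  constructor
  · intro h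
    rw [h]
    rfl
  · intro h
    have h1 : ((e1NHom he a b).toMul : Qbˣ) = 1 := Units.ext h
    exact h1

theorem e1NHom_eq_iff {N e : ℕ} [NeZero N] (he : e ≠ 0) (a b a' b' : ES.Kum N e) :
    e1NHom he a b = e1NHom he a' b' ↔ e1N a b = e1N a' b' := by
  rw [← e1NHom_apply he a b, ← e1NHom_apply he a' b']
  constructor
  · intro h
    rw [h]
  · intro h
    have h1 : ((e1NHom he a b).toMul : Qbˣ) = (e1NHom he a' b').toMul := Units.ext h
    exact h1

/-- **Part W for Part F.** -/
theorem isPairing {p e : ℕ} [NeZero p] (he : e.Prime) :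
    F.IsPairing p e (e1NHom (N := p) he.ne_zero) where
  nondeg a ha := by
    obtain ⟨b, hb⟩ := e1N_nondeg he ha
    exact ⟨b, fun h => hb ((e1NHom_eq_zero_iff he.ne_zero a b).1 h)⟩
  adj r a b := by
    have : NeZero r.1 := ⟨r.2.1.ne_zero⟩
    rw [e1NHom_eq_iff]
    exact e1N_hecke he.ne_zero r.2.1 (F.toGood p e r).2.2 a b

end Fermat.Agent.S15.W
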