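import Fermat.Agent.S15.W.Pair

/-!
# S15 / W / Level : compatibility of the pairings `e1 K m` for varying `m`

* `e1_of_mul`  : `f, g ∈ Dm (m' k)`:           `e1 K m' f g = e1 K (m' k) f g ^ k`   (`e_{m'}(k a, k b) = e_m(a, b)^k`);
* `e1_pow_right` : `f ∈ Dm (m' k)`, `g ∈ Dm m'`: `e1 K (m' k) f (g ^ k) = e1 K m' f g` (`e_m(a, incl b) = e_{m'}(k a, b)`).
-/

set_option autoImplicit false
set_option linter.unusedSectionVars false

namespace Fermat.Agent.S15.W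

open AlgebraicCurve Fermat.Agent.S26 Fermat.Agent.S37.Red

variable {K F : Type*} [Field K] [Field F] [Algebra K F] [IsAlgClosed K] [CharZero K] [FF1 K F]

theorem IsDm.of_mul {m' k : ℕ} {f : F} (hf : IsDm K (m' * k) f) : IsDm K m' f :=
  ⟨hf.1, fun v => (Int.natCast_dvd_natCast.mpr (dvd_mul_right m' k)).trans (hf.2 v)⟩

theorem IsDm.pow_mul {m' : ℕ} (k : ℕ) {g : F} (hg : IsDm K m' g) : IsDm K (m' * k) (g ^ k) := by
  refine ⟨pow_ne_zero _ hg.1, fun v => ?_⟩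
  rw [Fermat.Agent.S24.FF.ord_pow]
  obtain ⟨c, hc⟩ := hg.2 v
  rw [hc]
  exact ⟨c, by push_cast; ring⟩

theorem Dv_of_mul {m' k : ℕ} (hm : m' * k ≠ 0) {f : F} (hf : IsDm K (m' * k) f) :
    Dv K m' f = (k : ℤ) • Dv K (m' * k) f := by
  have hm' : m' ≠ 0 := fun h => hm (by rw [h, zero_mul])
  symm
  apply eq_Dv hm'
  rw [← nsmul_Dv hf, smul_smul]
  push_cast
  rfl

theorem Dv_pow {m' k : ℕ} (hm : m' * k ≠ 0) {g : F} (hg : IsDm K m' g) :
    Dv K (m' * k) (g ^ k) = Dv K m' g := by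
  symm
  apply eq_Dv hm
  ext v
  have h1 := congrArg (fun D : Divisor K F => D v) (nsmul_Dv hg)
  simp only [Finsupp.smul_apply, smul_eq_mul, divisorOf_apply] at h1 ⊢
  rw [Fermat.Agent.S24.FF.ord_pow, ← h1]
  push_cast
  ring

theorem Disj.pow_right {f g : F} (h : Disj K f g) (k : ℕ) : Disj K f (g ^ k) := by
  intro v
  rcases h v with h | h
  · exact Or.inl h
  · right
    rw [Fermat.Agent.S24.FF.ord_pow, h, mul_zero]

/-- `e_{m'}(k a, k b) = e_m(a, b) ^ k`, `m = m' k`. -/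
theorem e1_of_mul {m' k : ℕ} (hm : m' * k ≠ 0) {f g : F} (hf : IsDm K (m' * k) f)
    (hg : IsDm K (m' * k) g) : e1 K m' f g = e1 K (m' * k) f g ^ k := by
  have hm' : m' ≠ 0 := fun h => hm (by rw [h, zero_mul])
  obtain ⟨c, hc, hd⟩ := exists_move_disj hm hf.1 hg
  have hG : IsDm K (m' * k) (g * c ^ (m' * k)) := hg.mul (isDm_pow _ hc)
  rw [e1_eq_E_mul_pow hm hf hg hc hd]
  have h1 : g * c ^ (m' * k) = g * (c ^ k) ^ m' := by rw [← pow_mul, mul_comm k m']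
  have hd' : Disj K f (g * (c ^ k) ^ m') := h1 ▸ hd
  rw [e1_eq_E_mul_pow hm' hf.of_mul hg.of_mul (pow_ne_zero _ hc) hd', ← h1]
  rw [E, E, Dv_of_mul hm hG, Dv_of_mul hm hf, evalD_zsmul, evalD_zsmul, div_pow, zpow_natCast,
    zpow_natCast]

/-- `e_m(a, incl b) = e_{m'}(k a, b)`, `m = m' k`. -/
theorem e1_pow_right {m' k : ℕ} (hm : m' * k ≠ 0) {f g : F} (hf : IsDm K (m' * k) f)
    (hg : IsDm K m' g) : e1 K (m' * k) f (g ^ k) = e1 K m' f g := by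
  have hm' : m' ≠ 0 := fun h => hm (by rw [h, zero_mul])
  obtain ⟨c, hc, hd⟩ := exists_move_disj hm' hf.1 hg
  have hG : IsDm K m' (g * c ^ m') := hg.mul (isDm_pow _ hc)
  rw [e1_eq_E_mul_pow hm' hf.of_mul hg hc hd]
  have h1 : g ^ k * c ^ (m' * k) = (g * c ^ m') ^ k := by rw [mul_pow, ← pow_mul]
  have hd' : Disj K f (g ^ k * c ^ (m' * k)) := h1 ▸ hd.pow_right k
  rw [e1_eq_E_mul_pow hm hf (hg.pow_mul k) hc hd', h1]
  rw [E, E, Dv_pow hm hG, Dv_of_mul hm hf, evalD_zsmul, zpow_natCast,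
    evalD_pow (unitOn_Dv hG.1 hd.symm _)]

/-- `e_m(incl a, b) = e_{m'}(a, k b)`, `m = m' k`. -/
theorem e1_pow_left {m' k : ℕ} (hm : m' * k ≠ 0) {f g : F} (hf : IsDm K m' f)
    (hg : IsDm K (m' * k) g) : e1 K (m' * k) (f ^ k) g = e1 K m' f g := by
  have hm' : m' ≠ 0 := fun h => hm (by rw [h, zero_mul])
  have h1 := e1_mul_e1_symm hm (hf.pow_mul k) hg
  have h2 := e1_mul_e1_symm hm' hf hg.of_mul
  rw [e1_pow_right hm hg hf] at h1
  have h3 := e1_ne_zero hm' hg.of_mul hf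
  exact mul_right_cancel₀ h3 (h1.trans h2.symm)

end Fermat.Agent.S15.W
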