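import Fermat.Agent.S15.W.Mod
import Fermat.Agent.S15.W.Level
import Fermat.Agent.ES.B.Trans

/-!
# S15 / W / ModLevel : `e1N` and the maps `Kum.trans` (`= multiplication by k : J[m' k] → J[m']`),
`Kum.incl` (`= the inclusion J[m'] ⊆ J[m' k]`)
-/

set_option autoImplicit false
set_option linter.unusedSectionVars false

namespace Fermat.Agent.S15.W

open AlgebraicCurve ModularCurve Fermat.Agent.ES

variable {N m' k : ℕ} [NeZero N]

theorem isDm_coe' {e : ℕ} (f : ES.Dm N e) : IsDm Qb e ((f : (FF N)ˣ) : FF N) :=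
  ⟨(f : (FF N)ˣ).ne_zero, fun v => f.2 v⟩

/-- `e_{m'}(k a, k b) = e_m(a, b) ^ k`, `m = m' k`. -/
theorem e1N_trans (hm : m' * k ≠ 0) (a b : ES.Kum N (m' * k)) :
    e1N (Kum.trans N (dvd_mul_right m' k) a) (Kum.trans N (dvd_mul_right m' k) b) = e1N a b ^ k := by
  have hm' : m' ≠ 0 := fun h => hm (by rw [h, zero_mul])
  obtain ⟨f, rfl⟩ := Kum.mk_surjective a
  obtain ⟨g, rfl⟩ := Kum.mk_surjective b
  rw [Kum.trans_mk, Kum.trans_mk, e1N_mk hm', e1N_mk hm]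
  exact e1_of_mul hm (isDm_coe' f) (isDm_coe' g)

/-- `e_m(a, incl b) = e_{m'}(k a, b)`. -/
theorem e1N_incl_right (hm : m' * k ≠ 0) (a : ES.Kum N (m' * k)) (b : ES.Kum N m') :
    e1N a (Kum.incl N m' k b) = e1N (Kum.trans N (dvd_mul_right m' k) a) b := by
  have hm' : m' ≠ 0 := fun h => hm (by rw [h, zero_mul])
  obtain ⟨f, rfl⟩ := Kum.mk_surjective a
  obtain ⟨g, rfl⟩ := Kum.mk_surjective b
  rw [Kum.trans_mk, Kum.incl_mk, e1N_mk hm', e1N_mk hm]
  have := e1_pow_right hm (isDm_coe' f) (isDm_coe' g)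
  simpa [Dm.coe_powHom, Dm.coe_incl] using this

/-- `e_m(incl a, b) = e_{m'}(a, k b)`. -/
theorem e1N_incl_left (hm : m' * k ≠ 0) (a : ES.Kum N m') (b : ES.Kum N (m' * k)) :
    e1N (Kum.incl N m' k a) b = e1N a (Kum.trans N (dvd_mul_right m' k) b) := by
  have hm' : m' ≠ 0 := fun h => hm (by rw [h, zero_mul])
  obtain ⟨f, rfl⟩ := Kum.mk_surjective a
  obtain ⟨g, rfl⟩ := Kum.mk_surjective b
  rw [Kum.trans_mk, Kum.incl_mk, e1N_mk hm', e1N_mk hm]
  have := e1_pow_left hm (isDm_coe' f) (isDm_coe' g)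
  simpa [Dm.coe_powHom, Dm.coe_incl] using this

end Fermat.Agent.S15.W
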