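import Fermat.Agent.S15.W.Proj
import Fermat.Agent.S15.W.KumPair
import Fermat.Agent.S17.G.FromS27
import Fermat.Agent.S26.Sq.Basic

/-!
# S15 / W / Nondeg : the Weil pairing is non degenerate (`e` prime)

`a = [f] ≠ 0` in `Kum K F e`.  `F' = F(φ)`, `φ^e = f`, `τ ∈ Aut(F'/F)`, `τ φ = ζ φ`, `ζ ≠ 1`.
(N1) ABSTRACT COMPUTATION `exists_e1_ne_one_of_cover`.  Let `Q` be a place of `F'` with `ord_Q φ = 0`, `τQ := τ • Q` (`SemilinearAut.ofAlgAut (τ.restrictScalars K)`),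
  `κ := (τQ) - (Q)`, of degree `0`.  `Pic⁰(F')` is divisible: `e Z₁ = κ + div h₁`.  Moving (`S26.exists_ord_eq`: `Z₁ ↦ Z₁ + div m`, `h₁ ↦ h₁ m^e`) we may assume that
  `Z₁` is disjoint from `div φ`.  `g := N h₁`.  `div g = π_* div h₁ = e π_* Z₁ - π_* κ = e π_* Z₁` (`τQ` and `Q` have the same restriction to `F`), so `g ∈ Dm`,
  `D_g = π_* Z₁`, disjoint from `div f` (`ord_w φ ≠ 0 ↔ ord_{w|F} f ≠ 0`).
  `f(D_g) = (α f)(Z₁) = φ(Z₁)^e = φ(e Z₁) = φ(κ) φ(div h₁)`;  `φ(κ) = φ(τQ)/φ(Q) = ζ⁻¹` (`val_smul`: `val (τ • Q) φ = val (τ • Q) (τ • (τ⁻¹ φ)) = val Q (ζ⁻¹ φ)`);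
  `φ(div h₁) = h₁(div φ)` (reciprocity on `F'`; `div h₁` is supported in `supp Z₁ ∪ {Q, τQ}`), `div φ = π^* D_f`, `h₁(π^* D_f) = (N h₁)(D_f) = g(D_f)` (`evalD_norm`).
  Hence `e1 f g = f(D_g)/g(D_f) = ζ⁻¹ ≠ 1`.
(N2) CONSTRUCTION.  `f` is not an `e`-th power, `e` prime: `X^e - C f` is irreducible (`X_pow_sub_C_irreducible_of_prime`), `F' := AdjoinRoot (X^e - C f)`,
  `φ := AdjoinRoot.root _`; `τ` from `Mathlib/FieldTheory/KummerExtension.lean` (`autAdjoinRootXPowSubC`, needs a primitive root in `F`: the image of a primitive `e`-th root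
  of unity of `K`, `IsAlgClosed` + `CharZero`), or directly `AdjoinRoot.liftAlgHom`/`AlgEquiv.ofBijective`.  `FF1 K F'`: `S26.Sq.ff1_of_finite`.
-/

set_option autoImplicit false

namespace Fermat.Agent.S15.W

open AlgebraicCurve Fermat.Agent.S26 Fermat.Agent.S37.Red Fermat.Agent.S48.B1

section cover

variable {K F F' : Type*} [Field K] [Field F] [Field F'] [Algebra K F] [Algebra K F'] [Algebra F F']
  [IsScalarTower K F F'] [Module.Finite F F'] [IsAlgClosed K] [CharZero K] [FF1 K F] [FF1 K F']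

/-! ### TASK S15/W-N1a -/

/-- a `K`-automorphism of `F'` over `F` does not change the restriction of a place to `F`. -/
theorem restrict_smul (τ : F' ≃ₐ[F] F') (Q : Place K F') :
    (SemilinearAut.ofAlgAut (τ.restrictScalars K) • Q).restrict F = Q.restrict F := by
  apply Place.ext
  ext x
  rw [Place.mem_restrict_iff, Place.mem_restrict_iff, SemilinearAut.smul_toValuationSubring,
    ValuationSubring.mem_pointwise_smul_iff_inv_smul_mem, SemilinearAut.inv_smul_def]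
  have h1 : (SemilinearAut.toRingAut (SemilinearAut.ofAlgAut (τ.restrictScalars K))).symm
      (algebraMap F F' x) = algebraMap F F' x := by
    rw [RingEquiv.symm_apply_eq]
    exact (τ.commutes x).symm
  rw [h1]

/-- the data `(Z₁, h₁)`, after moving. -/
theorem exists_div_data {e : ℕ} (he : e ≠ 0) (hdiv : ∀ x : Pic0 K F', ∃ y : Pic0 K F', e • y = x)
    (κ : Divisor K F') (hκ : Divisor.degree κ = 0) (S : Finset (Place K F')) :
    ∃ (Z : Divisor K F') (h : F'), h ≠ 0 ∧ (e : ℤ) • Z = κ + divisorOf (Ω := K) h ∧ ∀ w ∈ S, Z w = 0 := by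
  obtain ⟨y, hy⟩ := hdiv (Pic0.mk ⟨κ, hκ⟩)
  obtain ⟨Z0, rfl⟩ := Pic0.mk_surjective y
  have h1 : (Pic0.mk (e • Z0) : Pic0 K F') = Pic0.mk ⟨κ, hκ⟩ := hy
  have h2 := (QuotientAddGroup.eq (s := (Divisor.principal (K := K) (F := F')).addSubgroupOf
    (Divisor.degZero (K := K) (F := F')))).1 h1.symm
  rw [AddSubgroup.mem_addSubgroupOf] at h2
  obtain ⟨h0, hh0, hh⟩ := h2
  obtain ⟨m, hm0, hm⟩ := exists_ord_eq S (fun w => - (Z0 : Divisor K F') w)
  refine ⟨(Z0 : Divisor K F') + divisorOf (Ω := K) m, h0 * m ^ e,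
    mul_ne_zero hh0 (pow_ne_zero e hm0), ?_, fun w hw => ?_⟩
  · ext w
    have h3 := hh w
    simp only [AddSubgroup.coe_add, AddSubgroup.coe_neg, AddSubgroup.coe_nsmul, Finsupp.add_apply,
      Finsupp.neg_apply, Finsupp.smul_apply, smul_eq_mul, nsmul_eq_mul] at h3
    rw [Finsupp.smul_apply, Finsupp.add_apply, Finsupp.add_apply, divisorOf_apply, divisorOf_apply,
      w.ord_mul hh0 (pow_ne_zero e hm0), ← zpow_natCast, w.ord_zpow, ← h3, smul_eq_mul]
    ring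
  · rw [Finsupp.add_apply, divisorOf_apply, hm w hw]
    ring

/-- `φ(τQ) / φ(Q) = ζ⁻¹`. -/
theorem evalD_kappa (τ : F' ≃ₐ[F] F') {φ : F'} {ζ : K} (hζ : ζ ≠ 0)
    (hτ : τ φ = algebraMap K F' ζ * φ) {Q : Place K F'} (hφ : φ ≠ 0) (hQ : Q.ord φ = 0) :
    evalD φ (Finsupp.single (SemilinearAut.ofAlgAut (τ.restrictScalars K) • Q) 1 - Finsupp.single Q 1)
      = ζ⁻¹ := by
  set g := SemilinearAut.ofAlgAut (τ.restrictScalars K) with hg
  have hζ' : algebraMap K F' ζ ≠ 0 := (map_ne_zero (algebraMap K F')).2 hζ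
  have h1 : g • (algebraMap K F' ζ⁻¹ * φ) = φ := by
    rw [smul_mul', SemilinearAut.smul_algebraMap]
    have : g • φ = τ φ := rfl
    rw [this, hτ, hg, SemilinearAut.baseAut_ofAlgAut, RingAut.one_apply, ← mul_assoc, ← map_mul,
      inv_mul_cancel₀ hζ, map_one, one_mul]
  have hreg : Reg Q φ := (reg_iff_ord Q).2 hQ.ge
  have h2 : val (g • Q) φ = ζ⁻¹ * val Q φ := by
    conv_lhs => rw [← h1]
    rw [val_smul, hg, SemilinearAut.baseAut_ofAlgAut, RingAut.one_apply,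
      val_mul Q (reg_algebraMap Q _) hreg, val_algebraMap]
  have h3 : (g • Q).ord φ = 0 := by
    conv_lhs => rw [← h1]
    rw [SemilinearAut.ord_smul, Q.ord_mul ((map_ne_zero (algebraMap K F')).2 (inv_ne_zero hζ)) hφ,
      Fermat.Agent.S24.FF.ord_algebraMap, hQ, add_zero]
  rw [evalD_sub (unitOn_single hφ h3 1) (unitOn_single hφ hQ 1), evalD_single, evalD_single,
    zpow_one, zpow_one, h2, mul_div_assoc, div_self (val_ne_zero hφ hQ), mul_one]


/-! ### TASK S15/W-N1b -/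

/-- (N1) -/
theorem exists_e1_ne_one_of_cover {e : ℕ} (he : e ≠ 0)
    (hdiv : ∀ x : Pic0 K F', ∃ y : Pic0 K F', e • y = x)
    {f : F} (hf : IsDm K e f) {φ : F'} (hφ : φ ^ e = algebraMap F F' f)
    (τ : F' ≃ₐ[F] F') {ζ : K} (hζ : ζ ≠ 0) (hζ1 : ζ ≠ 1) (hτ : τ φ = algebraMap K F' ζ * φ) :
    ∃ g : F, IsDm K e g ∧ e1 K e f g ≠ 1 := by
  classical
  have hφ0 : φ ≠ 0 := by
    rintro rfl
    rw [zero_pow he] at hφ
    exact hf.1 ((map_eq_zero (algebraMap F F')).1 hφ.symm)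
  -- a place `Q` off `div φ`
  have hinf : Infinite (Place K F') := infinite_place (Ω := K)
  obtain ⟨Q, hQ⟩ := Infinite.exists_notMem_finset (divisorOf (Ω := K) φ).support
  have hQ0 : Q.ord φ = 0 := by
    rw [Finsupp.mem_support_iff, divisorOf_apply, not_not] at hQ
    exact hQ
  set σ : SemilinearAut K F' := SemilinearAut.ofAlgAut (τ.restrictScalars K) with hσ
  have hσφ : σ • φ = algebraMap K F' ζ * φ := hτ
  have hσQ0 : (σ • Q).ord φ = 0 := by
    have h1 := SemilinearAut.ord_smul σ Q φ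
    rw [hσφ, Place.ord_mul _ ((map_ne_zero _).2 hζ) hφ0, S24.FF.ord_algebraMap, zero_add, hQ0] at h1
    exact h1
  set κ : Divisor K F' := Finsupp.single (σ • Q) 1 - Finsupp.single Q 1 with hκ
  have hκdeg : Divisor.degree κ = 0 := by
    rw [hκ, map_sub, Divisor.degree_single, Divisor.degree_single, SemilinearAut.deg_smul, sub_self]
  obtain ⟨Z, h, hh0, hZ, hZS⟩ := exists_div_data he hdiv κ hκdeg (divisorOf (Ω := K) φ).support
  have hZφ : ∀ w : Place K F', w.ord φ ≠ 0 → Z w = 0 := fun w hw =>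
    hZS w (by rw [Finsupp.mem_support_iff, divisorOf_apply]; exact hw)
  have hUZ : UnitOn φ Z := ⟨hφ0, fun w hw => by_contra fun h' => hw (hZφ w h')⟩
  have hUκ : UnitOn φ κ := (unitOn_single hφ0 hσQ0 1).sub (unitOn_single hφ0 hQ0 1)
  have hdivh : divisorOf (Ω := K) h = (e : ℤ) • Z - κ := by rw [hZ]; abel
  have hUh : UnitOn φ (divisorOf (Ω := K) h) := by
    rw [hdivh]; exact (hUZ.zsmul _).sub hUκ
  have hdisj : Disj K φ h := fun w => by
    by_cases hw : w.ord h = 0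
    · exact Or.inr hw
    · exact Or.inl (hUh.2 w (by rw [divisorOf_apply]; exact hw))
  have hpκ : Divisor.pushforward F κ = 0 := by
    rw [hκ, map_sub, Divisor.pushforward_single, Divisor.pushforward_single, restrict_smul,
      J1_inertiaDeg, J1_inertiaDeg, sub_self]
  set g : F := Algebra.norm F h with hg
  have hg0 : g ≠ 0 := Algebra.norm_ne_zero_iff.2 hh0
  have hdivg : (e : ℤ) • Divisor.pushforward F Z = divisorOf (Ω := K) g := by
    rw [hg, divisorOf_norm hh0, hdivh, map_sub, hpκ, sub_zero, map_zsmul]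
  have hgDm : IsDm K e g := ⟨hg0, fun v => by
    rw [← divisorOf_apply (Ω := K), ← hdivg, Finsupp.smul_apply, smul_eq_mul]
    exact dvd_mul_right _ _⟩
  refine ⟨g, hgDm, ?_⟩
  have hdivφ : divisorOf (Ω := K) φ = Divisor.pullback F' (Dv K e f) := by
    rw [← Dv_algebraMap he hf, ← hφ]
    refine eq_Dv he ?_
    ext w
    rw [Finsupp.smul_apply, divisorOf_apply, divisorOf_apply, S24.FF.ord_pow, smul_eq_mul]
  have hdis : ∀ v : Place K F, Dv K e f v = 0 ∨ Divisor.pushforward F Z v = 0 := by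
    intro v
    by_cases hv : Dv K e f v = 0
    · exact Or.inl hv
    · refine Or.inr ?_
      rw [pushforward_apply']
      refine Finset.sum_eq_zero fun w hw => hZφ w ?_
      rw [← divisorOf_apply (Ω := K), hdivφ, Divisor.pullback_apply, Place.mem_fiber.1 hw]
      exact mul_ne_zero (by exact_mod_cast (Place.ramificationIndex_pos (F := F) w).ne') hv
  rw [e1_eq_of_divisors he hf.1 hg0 (nsmul_Dv hf) hdivg hdis]
  have hUfZ : UnitOn (algebraMap F F' f) Z := by rw [← hφ]; exact hUZ.pow e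
  have h1 : evalD f (Divisor.pushforward F Z) = ζ⁻¹ * evalD φ (divisorOf (Ω := K) h) := by
    rw [← evalD_algebraMap_left hUfZ, ← hφ, evalD_pow hUZ, ← zpow_natCast, ← evalD_zsmul, hZ,
      evalD_add hUκ hUh, hκ, hσ, evalD_kappa τ hζ hτ hφ0 hQ0]
  have hUhφ : UnitOn h (Divisor.pullback F' (Dv K e f)) := by
    rw [← hdivφ]; exact unitOn_divisorOf hh0 hdisj.symm
  have h2 : evalD g (Dv K e f) = evalD φ (divisorOf (Ω := K) h) := by
    rw [hg, evalD_norm hUhφ, ← hdivφ, weil_reciprocity hφ0 hh0 hdisj]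
  rw [h1, h2, mul_div_assoc, div_self hUh.evalD_ne_zero, mul_one]
  intro h3
  exact hζ1 (inv_eq_one.1 h3)

end cover

universe u

variable {K : Type*} {F : Type u} [Field K] [Field F] [Algebra K F] [IsAlgClosed K] [CharZero K] [FF1 K F]

/-! ### TASK S15/W-N2 -/

open Polynomial in
/-- (N2) the cyclic cover. -/
theorem exists_cover {e : ℕ} (he : e.Prime) {f : F} (hf : ∀ h : F, h ^ e ≠ f) :
    ∃ (F' : Type u) (_ : Field F') (_ : Algebra K F') (_ : Algebra F F') (_ : IsScalarTower K F F')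
      (_ : Module.Finite F F') (_ : FF1 K F') (φ : F') (τ : F' ≃ₐ[F] F') (ζ : K),
      φ ^ e = algebraMap F F' f ∧ ζ ≠ 0 ∧ ζ ≠ 1 ∧ τ φ = algebraMap K F' ζ * φ := by
  have hirr : Irreducible (X ^ e - C f) := X_pow_sub_C_irreducible_of_prime he hf
  have : Fact (Irreducible (X ^ e - C f)) := ⟨hirr⟩
  have : NeZero (e : K) := ⟨by exact_mod_cast he.ne_zero⟩
  obtain ⟨ζ, hζ⟩ := HasEnoughRootsOfUnity.exists_primitiveRoot K e
  have hne : (X ^ e - C f) ≠ 0 := hirr.ne_zero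
  have : Module.Finite F (AdjoinRoot (X ^ e - C f)) :=
    (AdjoinRoot.powerBasis hne).finite
  have : FF1 K (AdjoinRoot (X ^ e - C f)) := Sq.ff1_of_finite K F _
  have hζe : (algebraMap K F ζ) ^ e = 1 := by rw [← map_pow, hζ.pow_eq_one, map_one]
  have : NeZero e := ⟨he.ne_zero⟩
  let η : rootsOfUnity e F := rootsOfUnity.mkOfPowEq (algebraMap K F ζ) hζe
  refine ⟨AdjoinRoot (X ^ e - C f), inferInstance, inferInstance, inferInstance, inferInstance,
    inferInstance, inferInstance, AdjoinRoot.root _, autAdjoinRootXPowSubC e f η, ζ, ?_, ?_, ?_, ?_⟩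
  · exact root_X_pow_sub_C_pow e f
  · exact hζ.ne_zero he.ne_zero
  · exact hζ.ne_one he.one_lt
  · rw [autAdjoinRootXPowSubC_root, Algebra.smul_def, IsScalarTower.algebraMap_apply K F]
    rfl

/-! ### TASK S15/W-N3 -/

theorem exists_e1_ne_one {e : ℕ} (he : e.Prime) (j : K →+* ℂ) {f : F} (hf : IsDm K e f)
    (hf' : ∀ h : F, h ^ e ≠ f) : ∃ g : F, IsDm K e g ∧ e1 K e f g ≠ 1 := by
  obtain ⟨F', _, _, _, _, _, _, φ, τ, ζ, hφ, hζ, hζ1, hτ⟩ := exists_cover (K := K) he hf'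
  exact exists_e1_ne_one_of_cover he.ne_zero
    (fun x => Fermat.Agent.S17.G.pic0_divisible K F' j e he.pos x) hf hφ τ hζ hζ1 hτ

/-- **non degeneracy**. -/
theorem e1K_nondeg {e : ℕ} (he : e.Prime) (j : K →+* ℂ) {a : Kum K F e} (ha : a ≠ 0) :
    ∃ b : Kum K F e, e1K a b ≠ 1 := by
  obtain ⟨f, rfl⟩ := Kum.mk_surjective a
  have hf' : ∀ h : F, h ^ e ≠ ((f : Fˣ) : F) := by
    intro h hh
    apply ha
    rw [Kum.mk_eq_zero_iff]
    have h0 : h ≠ 0 := by
      rintro rfl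
      rw [zero_pow he.ne_zero] at hh
      exact (f : Fˣ).ne_zero hh.symm
    exact ⟨Units.mk0 h h0, Units.ext (by rw [Units.val_pow_eq_pow_val, Units.val_mk0, hh])⟩
  obtain ⟨g, hg, hne⟩ := exists_e1_ne_one he j (isDm_coe f) hf'
  refine ⟨Kum.mk ⟨Units.mk0 g hg.1, fun P => hg.2 P⟩, ?_⟩
  rw [e1K_mk he.ne_zero]
  exact hne

end Fermat.Agent.S15.W
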