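import Fermat.Agent.S15.W.Recip
import Fermat.Agent.S26.FF.Approx

/-!
# S15 / W / Pair : formal properties of the Weil pairing `e1 K e f g` on functions

Only inputs: `Eval.lean`, `weil_reciprocity`, `S26.exists_ord_eq` (prescribed orders at finitely many places).
Standing: `K` alg. closed, char. `0`, `F/K` a function field, `e ≠ 0`.

KEY LEMMA `E_mul_pow`.  `f, g ∈ Dm`, `k ≠ 0`, `Disj f g`, `Disj f (g k^e)`.  Then `Disj f k`
(if `ord_v k ≠ 0` then `ord_v g ≠ 0` or `ord_v (g k^e) ≠ 0`), `D_{g k^e} = D_g + div k`, so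
`f(D_{g k^e}) = f(D_g) f(div k)`, and `(g k^e)(D_f) = g(D_f) k(D_f)^e = g(D_f) k(e D_f) = g(D_f) k(div f)`.
Reciprocity: `f(div k) = k(div f)`.  Hence `E f (g k^e) = E f g`.
Everything else is formal:
* `E f g * E g f = 1` by definition (numerators and denominators are `≠ 0`);
* `E f (g g') = E f g * E f g'` if `Disj f g`, `Disj f g'`; the same on the left;
* `e1 f g = E f (g m^e)`, `m = mv f g`.  For ANY `k ≠ 0` with `Disj f (g k^e)`: `e1 f g = E f (g k^e)` (`e1_eq_E_mul_pow`: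
  `g k^e = (g m^e) (k/m)^e`).
* left invariance `e1 (f k^e) g = e1 f g`: choose (`exists_move`) `m₂` with `G := g m₂^e` disjoint from `f` and from `f k^e`;
  `e1 (f k^e) g = E (f k^e) G = (E G (f k^e))⁻¹ = (E G f)⁻¹ = E f G = e1 f g`.
-/

set_option autoImplicit false

namespace Fermat.Agent.S15.W

open AlgebraicCurve Fermat.Agent.S26 Fermat.Agent.S37.Red

variable {K F : Type*} [Field K] [Field F] [Algebra K F] [IsAlgClosed K] [CharZero K] [FF1 K F]
variable {e : ℕ}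

/-! ### TASK S15/W-P1 : moving -/

/-- moving lemma (weak approximation only). -/
theorem exists_move (he : e ≠ 0) {g : F} (hg : IsDm K e g) (S : Finset (Place K F)) :
    ∃ k : F, k ≠ 0 ∧ ∀ v ∈ S, v.ord (g * k ^ e) = 0 := by
  obtain ⟨k, hk0, hk⟩ := exists_ord_eq S (fun v => - (v.ord g / (e : ℤ)))
  refine ⟨k, hk0, fun v hv => ?_⟩
  rw [v.ord_mul hg.1 (pow_ne_zero _ hk0), ← zpow_natCast, v.ord_zpow, hk v hv]
  have h1 : (e : ℤ) * (v.ord g / (e : ℤ)) = v.ord g := Int.mul_ediv_cancel' (hg.2 v)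
  linarith

theorem exists_move_disj (he : e ≠ 0) {f g : F} (hf : f ≠ 0) (hg : IsDm K e g) :
    ∃ k : F, k ≠ 0 ∧ Disj K f (g * k ^ e) := by
  obtain ⟨k, hk0, hk⟩ := exists_move he hg (finite_ord_ne_zero (Ω := K) hf).toFinset
  refine ⟨k, hk0, fun v => ?_⟩
  by_cases h : v.ord f = 0
  · exact Or.inl h
  · exact Or.inr (hk v ((Set.Finite.mem_toFinset _).mpr h))

theorem exists_move_disj₂ (he : e ≠ 0) {f f' g : F} (hf : f ≠ 0) (hf' : f' ≠ 0) (hg : IsDm K e g) :
    ∃ k : F, k ≠ 0 ∧ Disj K f (g * k ^ e) ∧ Disj K f' (g * k ^ e) := by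
  classical
  obtain ⟨k, hk0, hk⟩ := exists_move he hg
    ((finite_ord_ne_zero (Ω := K) hf).toFinset ∪ (finite_ord_ne_zero (Ω := K) hf').toFinset)
  refine ⟨k, hk0, fun v => ?_, fun v => ?_⟩
  · by_cases h : v.ord f = 0
    · exact Or.inl h
    · exact Or.inr (hk v (Finset.mem_union_left _ ((Set.Finite.mem_toFinset _).mpr h)))
  · by_cases h : v.ord f' = 0
    · exact Or.inl h
    · exact Or.inr (hk v (Finset.mem_union_right _ ((Set.Finite.mem_toFinset _).mpr h)))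

theorem mv_ne_zero (he : e ≠ 0) {f g : F} (hf : f ≠ 0) (hg : IsDm K e g) : mv K e f g ≠ 0 := by
  have h := exists_move_disj he hf hg
  rw [mv, dif_pos h]
  exact h.choose_spec.1

theorem disj_mv (he : e ≠ 0) {f g : F} (hf : f ≠ 0) (hg : IsDm K e g) :
    Disj K f (g * mv K e f g ^ e) := by
  have h := exists_move_disj he hf hg
  rw [mv, dif_pos h]
  exact h.choose_spec.2

/-! ### TASK S15/W-P2 : `E` -/

theorem E_ne_zero {f g : F} (hf : f ≠ 0) (hg : g ≠ 0) (h : Disj K f g) : E K e f g ≠ 0 :=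
  div_ne_zero (unitOn_Dv hf h e).evalD_ne_zero (unitOn_Dv hg h.symm e).evalD_ne_zero

theorem E_mul_E_symm {f g : F} (hf : f ≠ 0) (hg : g ≠ 0) (h : Disj K f g) :
    E K e f g * E K e g f = 1 := by
  have h1 := (unitOn_Dv hf h e).evalD_ne_zero
  have h2 := (unitOn_Dv hg h.symm e).evalD_ne_zero
  unfold E
  field_simp

theorem E_mul_right {f g g' : F} (hf : IsDm K e f) (hg : IsDm K e g) (hg' : IsDm K e g')
    (h : Disj K f g) (h' : Disj K f g') : E K e f (g * g') = E K e f g * E K e f g' := by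
  unfold E
  rw [Dv_mul hg hg', evalD_add (unitOn_Dv hf.1 h e) (unitOn_Dv hf.1 h' e),
    evalD_mul (unitOn_Dv hg.1 h.symm e) (unitOn_Dv hg'.1 h'.symm e), mul_div_mul_comm]

/-- the KEY LEMMA. -/
theorem E_mul_pow (he : e ≠ 0) {f g k : F} (hf : IsDm K e f) (hg : IsDm K e g) (hk : k ≠ 0)
    (h : Disj K f g) (h' : Disj K f (g * k ^ e)) : E K e f (g * k ^ e) = E K e f g := by
  have hfk : Disj K f k := by
    intro v
    rcases h v with h1 | h1
    · exact Or.inl h1
    rcases h' v with h2 | h2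
    · exact Or.inl h2
    right
    rw [Place.ord_mul v hg.1 (pow_ne_zero e hk), h1, zero_add,
      Fermat.Agent.S24.FF.ord_pow] at h2
    exact (mul_eq_zero.mp h2).resolve_left (by exact_mod_cast he)
  have hR : evalD f (divisorOf (Ω := K) k) ≠ 0 := (unitOn_divisorOf hf.1 hfk).evalD_ne_zero
  have h3 : evalD (k ^ e) (Dv K e f) = evalD f (divisorOf (Ω := K) k) := by
    rw [evalD_pow (unitOn_Dv hk hfk.symm e), ← zpow_natCast, ← evalD_zsmul, nsmul_Dv hf,
      weil_reciprocity hf.1 hk hfk]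
  unfold E
  rw [Dv_mul_pow he hg hk, evalD_add (unitOn_Dv hf.1 h e) (unitOn_divisorOf hf.1 hfk),
    evalD_mul (unitOn_Dv hg.1 h.symm e) ((unitOn_Dv hk hfk.symm e).pow e), h3,
    mul_div_mul_right _ _ hR]

/-- `E ^ e = 1` (reciprocity). -/
theorem E_pow (he : e ≠ 0) {f g : F} (hf : IsDm K e f) (hg : IsDm K e g) (h : Disj K f g) :
    E K e f g ^ e = 1 := by
  have h1 : evalD f (Dv K e g) ^ e = evalD f (divisorOf (Ω := K) g) := by
    rw [← zpow_natCast, ← evalD_zsmul, nsmul_Dv hg]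
  have h2 : evalD g (Dv K e f) ^ e = evalD g (divisorOf (Ω := K) f) := by
    rw [← zpow_natCast, ← evalD_zsmul, nsmul_Dv hf]
  unfold E
  rw [div_pow, h1, h2, weil_reciprocity hf.1 hg.1 h]
  exact div_self (unitOn_divisorOf hg.1 h.symm).evalD_ne_zero

theorem E_algebraMap_left (he : e ≠ 0) {c : K} (hc : c ≠ 0) {g : F} (hg : IsDm K e g) :
    E K e (algebraMap K F c) g = 1 := by
  have h1 : Dv K e (algebraMap K F c) = 0 := by
    ext v
    rw [Dv_apply, Fermat.Agent.S24.FF.ord_algebraMap, Int.zero_ediv]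
    rfl
  unfold E
  rw [h1, evalD_zero, evalD_algebraMap hc, degree_Dv he hg, zpow_zero, div_one]

theorem E_smul (σ : SemilinearAut K F) (f g : F) :
    E K e (σ • f) (σ • g) = SemilinearAut.baseAut σ (E K e f g) := by
  unfold E
  rw [Dv_smul, Dv_smul, evalD_smul, evalD_smul, map_div₀]

/-! ### TASK S15/W-P3 : `e1` -/

theorem e1_eq_E_mul_pow (he : e ≠ 0) {f g k : F} (hf : IsDm K e f) (hg : IsDm K e g) (hk : k ≠ 0)
    (h : Disj K f (g * k ^ e)) : e1 K e f g = E K e f (g * k ^ e) := by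
  have hm := mv_ne_zero he hf.1 hg
  have hd := disj_mv he hf.1 hg
  have e2 : g * k ^ e = g * mv K e f g ^ e * (k / mv K e f g) ^ e := by
    rw [div_pow]
    field_simp
  unfold e1
  rw [e2] at h ⊢
  exact (E_mul_pow he hf (hg.mul (isDm_pow e hm)) (div_ne_zero hk hm) hd h).symm

/-- **the computation rule**. -/
theorem e1_eq_E (he : e ≠ 0) {f g : F} (hf : IsDm K e f) (hg : IsDm K e g) (h : Disj K f g) :
    e1 K e f g = E K e f g := by
  have := e1_eq_E_mul_pow he hf hg (one_ne_zero) (by rwa [one_pow, mul_one])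
  rwa [one_pow, mul_one] at this

/-- the computation rule in terms of divisors `e D_f = div f`, `e D_g = div g` with disjoint supports. -/
theorem e1_eq_of_divisors (he : e ≠ 0) {f g : F} (hf : f ≠ 0) (hg : g ≠ 0) {Df Dg : Divisor K F}
    (hDf : (e : ℤ) • Df = divisorOf (Ω := K) f) (hDg : (e : ℤ) • Dg = divisorOf (Ω := K) g)
    (h : ∀ v : Place K F, Df v = 0 ∨ Dg v = 0) :
    e1 K e f g = evalD f Dg / evalD g Df := by
  have h1 : ∀ v : Place K F, v.ord f = e * Df v := fun v => by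
    have := DFunLike.congr_fun hDf v
    rw [divisorOf_apply] at this
    rw [← this]
    rfl
  have h2 : ∀ v : Place K F, v.ord g = e * Dg v := fun v => by
    have := DFunLike.congr_fun hDg v
    rw [divisorOf_apply] at this
    rw [← this]
    rfl
  have hf' : IsDm K e f := ⟨hf, fun v => ⟨Df v, h1 v⟩⟩
  have hg' : IsDm K e g := ⟨hg, fun v => ⟨Dg v, h2 v⟩⟩
  have hd : Disj K f g := fun v => (h v).imp (fun h0 => by rw [h1, h0, mul_zero])
    (fun h0 => by rw [h2, h0, mul_zero])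
  rw [e1_eq_E he hf' hg' hd, eq_Dv he hDf, eq_Dv he hDg]
  rfl

theorem e1_ne_zero (he : e ≠ 0) {f g : F} (hf : IsDm K e f) (hg : IsDm K e g) : e1 K e f g ≠ 0 :=
  E_ne_zero hf.1 (mul_ne_zero hg.1 (pow_ne_zero e (mv_ne_zero he hf.1 hg))) (disj_mv he hf.1 hg)

theorem e1_pow (he : e ≠ 0) {f g : F} (hf : IsDm K e f) (hg : IsDm K e g) : e1 K e f g ^ e = 1 :=
  E_pow he hf (hg.mul (isDm_pow e (mv_ne_zero he hf.1 hg))) (disj_mv he hf.1 hg)

theorem e1_mul_pow_right (he : e ≠ 0) {f g k : F} (hf : IsDm K e f) (hg : IsDm K e g) (hk : k ≠ 0) :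
    e1 K e f (g * k ^ e) = e1 K e f g := by
  have hgk : IsDm K e (g * k ^ e) := hg.mul (isDm_pow e hk)
  have hm := mv_ne_zero he hf.1 hgk
  have hd := disj_mv he hf.1 hgk
  have e2 : g * k ^ e * mv K e f (g * k ^ e) ^ e = g * (k * mv K e f (g * k ^ e)) ^ e := by
    rw [mul_pow, mul_assoc]
  rw [e1_eq_E_mul_pow he hf hg (mul_ne_zero hk hm) (by rwa [← e2]), ← e2]
  rfl

theorem e1_mul_right (he : e ≠ 0) {f g g' : F} (hf : IsDm K e f) (hg : IsDm K e g)
    (hg' : IsDm K e g') : e1 K e f (g * g') = e1 K e f g * e1 K e f g' := by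
  have hm := mv_ne_zero he hf.1 hg
  have hd := disj_mv he hf.1 hg
  have hm' := mv_ne_zero he hf.1 hg'
  have hd' := disj_mv he hf.1 hg'
  have hG : IsDm K e (g * mv K e f g ^ e) := hg.mul (isDm_pow e hm)
  have hG' : IsDm K e (g' * mv K e f g' ^ e) := hg'.mul (isDm_pow e hm')
  have e2 : g * g' * (mv K e f g * mv K e f g') ^ e
      = g * mv K e f g ^ e * (g' * mv K e f g' ^ e) := by
    rw [mul_pow]; ring
  rw [e1_eq_E_mul_pow he hf (hg.mul hg') (mul_ne_zero hm hm')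
    (by rw [e2]; exact hd.mul_right hG.1 hG'.1 hd'), e2, E_mul_right hf hG hG' hd hd']
  rfl

theorem e1_mul_pow_left (he : e ≠ 0) {f g k : F} (hf : IsDm K e f) (hg : IsDm K e g) (hk : k ≠ 0) :
    e1 K e (f * k ^ e) g = e1 K e f g := by
  have hfk : IsDm K e (f * k ^ e) := hf.mul (isDm_pow e hk)
  obtain ⟨m, hm, hd, hd'⟩ := exists_move_disj₂ he hf.1 hfk.1 hg
  have hG : IsDm K e (g * m ^ e) := hg.mul (isDm_pow e hm)
  rw [e1_eq_E_mul_pow he hfk hg hm hd', e1_eq_E_mul_pow he hf hg hm hd]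
  have h1 := E_mul_E_symm (e := e) hfk.1 hG.1 hd'
  have h2 := E_mul_E_symm (e := e) hf.1 hG.1 hd
  rw [E_mul_pow he hG hf hk hd.symm hd'.symm] at h1
  have h3 : E K e (g * m ^ e) f ≠ 0 := E_ne_zero hG.1 hf.1 hd.symm
  exact mul_right_cancel₀ h3 (h1.trans h2.symm)

/-- antisymmetry. -/
theorem e1_mul_e1_symm (he : e ≠ 0) {f g : F} (hf : IsDm K e f) (hg : IsDm K e g) :
    e1 K e f g * e1 K e g f = 1 := by
  have hm := mv_ne_zero he hf.1 hg
  have hd := disj_mv he hf.1 hg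
  have hG : IsDm K e (g * mv K e f g ^ e) := hg.mul (isDm_pow e hm)
  rw [← e1_mul_pow_left he hg hf hm, e1_eq_E he hG hf hd.symm]
  exact E_mul_E_symm hf.1 hG.1 hd

theorem e1_mul_left (he : e ≠ 0) {f f' g : F} (hf : IsDm K e f) (hf' : IsDm K e f')
    (hg : IsDm K e g) : e1 K e (f * f') g = e1 K e f g * e1 K e f' g := by
  have h1 := e1_mul_e1_symm he (hf.mul hf') hg
  have h2 := e1_mul_e1_symm he hf hg
  have h3 := e1_mul_e1_symm he hf' hg
  rw [e1_mul_right he hg hf hf'] at h1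
  have h4 : e1 K e g f * e1 K e g f' ≠ 0 := mul_ne_zero (e1_ne_zero he hg hf) (e1_ne_zero he hg hf')
  apply mul_right_cancel₀ h4
  rw [h1]
  calc (1 : K) = (e1 K e f g * e1 K e g f) * (e1 K e f' g * e1 K e g f') := by rw [h2, h3, one_mul]
    _ = _ := by ring

theorem e1_algebraMap_left (he : e ≠ 0) {c : K} (hc : c ≠ 0) {g : F} (hg : IsDm K e g) :
    e1 K e (algebraMap K F c) g = 1 :=
  E_algebraMap_left he hc
    (hg.mul (isDm_pow e (mv_ne_zero he ((map_ne_zero (algebraMap K F)).mpr hc) hg)))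

/-- `e1 f f = 1` for ODD `e` (formal: `e1 f f ^ 2 = 1 = e1 f f ^ e`). -/
theorem e1_self_of_odd (he : Odd e) {f : F} (hf : IsDm K e f) : e1 K e f f = 1 := by
  have he0 : e ≠ 0 := by
    rintro rfl
    exact (Nat.not_odd_iff_even.mpr Even.zero) he
  have h1 := e1_mul_e1_symm he0 hf hf
  have h2 := e1_pow he0 hf hf
  obtain ⟨k, rfl⟩ := he
  rw [pow_succ, pow_mul, pow_two, h1, one_pow, one_mul] at h2
  exact h2

/-- semilinear automorphisms. -/
theorem e1_smul (he : e ≠ 0) (σ : SemilinearAut K F) {f g : F} (hf : IsDm K e f) (hg : IsDm K e g) :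
    e1 K e (σ • f) (σ • g) = SemilinearAut.baseAut σ (e1 K e f g) := by
  have hm := mv_ne_zero he hf.1 hg
  have hd := disj_mv he hf.1 hg
  have e2 : σ • g * (σ • mv K e f g) ^ e = σ • (g * mv K e f g ^ e) := by
    rw [smul_mul', smul_pow']
  have hm' : σ • mv K e f g ≠ 0 := by
    rw [Ne, smul_eq_zero_iff_eq]
    exact hm
  rw [e1_eq_E_mul_pow he (hf.smul σ) (hg.smul σ) hm' (by rw [e2]; exact hd.smul σ), e2, E_smul]
  rfl

end Fermat.Agent.S15.W
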