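import Fermat.Agent.S15.W.Pair
import Fermat.Agent.S37.FFNorm.Main
import Fermat.Agent.S27.A.Basic

/-!
# S15 / W / Proj : finite extensions `F'/F` of function fields: value of a norm, projection formula

`K` alg. closed, char. `0`; `F`, `F'` function fields over `K`, `F'/F` finite.  Prelude: `w.restrict F`, `w.ramificationIndex F`,
`v.fiber F'`, `Divisor.pushforward F`, `Divisor.pullback F'` (`pullback_apply`), `Place.ord_restrict`.
On main: `S37.FFNorm.ord_norm_eq_sum` (`ord_v (N g) = ∑_{w | v} ord_w g`), `S37.FFNorm.inertiaDeg_eq_one`,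
`S37.FFNorm.pushforwardNormFormula`; they want a transcendental `y` with `[FiniteDimensional K⟮y⟯ F]`: `S27.exists_transcendental`,
`S27.finiteDimensional_adjoin`.

(PJ1) `val w (algebraMap F F' f) = val (w.restrict F) f`.
(PJ2) `(α f)(D') = f(π_* D')`.
(PJ★) if `h ∈ F'` has value `1` at all `w | v` then `N h` has value `1` at `v`.
   Proof.  `χ(Y) = charpoly of h over F`, `χ(a) = N(a - h)` for `a ∈ K` (`Algebra.norm` of `algebraMap a - h` = `eval a charpoly`:
   `Algebra.norm_eq_...`/`LinearMap.det` and `charpoly` : `(-1)^n`-conventions, cf. `Matrix.eval_charpoly`/`LinearMap.eval_charpoly`).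
   By `ord_norm_eq_sum`: `ord_v χ(a) = ∑_{w|v} ord_w (a - h) = 0` for `a ≠ 1` (`a - h` has the value `a - 1 ≠ 0`).
   So `χ(a)` is regular at `v` for `n + 1` distinct `a ≠ 1`; Lagrange interpolation (`Lagrange.sum_basis`/`Polynomial.eq_interpolate`): all coefficients of `χ`
   are regular at `v`; `χ̄ := χ mod v ∈ K[Y]` is monic of degree `n` and `χ̄(a) ≠ 0` for `a ≠ 1`; `K` alg. closed: `χ̄ = (Y - 1)^n`; `N h = (-1)^n χ(0)` has value `1`.
(PJ3') principal divisors: `(N g)(div f) = f(div N g) = f(π_* div g) = (α f)(div g) = g(div α f)`: reciprocity on `F` and on `F'` + (PJ2).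
(PJ3) `(N g)(v) = ∏_{w | v} g(w) ^ e(w|v)` if `g` is a unit at all `w | v`.
   Proof.  `f ∈ F` with `ord_v f = 1`; `S` = support of `div f`; weak approximation on `F'` (`S26.exists_approx`): `g̃` with `g̃/g` of value `1` at all `w | v`
   and `g̃` of value `1` at all `w | v'`, `v' ∈ S \ {v}`.  (PJ3') for `(f, g̃)` and (PJ★) at every `v' ∈ S`.
(PJ4) `(N g)(D) = g(π^* D)`.
(PJ6) projection formula for `e1`.
   Proof.  Choose `k' ≠ 0` in `F'` with `ord_w (g k'^e) = 0` for all `w` over the support of `div f` (`exists_move`); `G := g k'^e`.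
   `Disj (α f) G`, `Disj f (N G)`.  `e1 (α f) g = E (α f) G = (α f)(D_G) / G(D_{α f})`, `D_{α f} = π^* D_f`, `π_* D_G = D_{N G}` (`eq_Dv`).
   So `= f(D_{NG}) / (N G)(D_f) = E f (N G) = e1 f (N G) = e1 f (N g * (N k')^e) = e1 f (N g)`.
-/

set_option autoImplicit false

namespace Fermat.Agent.S15.W

open AlgebraicCurve Fermat.Agent.S26 Fermat.Agent.S37.Red

variable {K F F' : Type*} [Field K] [Field F] [Field F'] [Algebra K F] [Algebra K F'] [Algebra F F']
  [IsScalarTower K F F'] [Module.Finite F F'] [IsAlgClosed K] [CharZero K] [FF1 K F] [FF1 K F']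

/-! ### TASK S15/W-J1 -/

omit [IsAlgClosed K] [CharZero K] [FF1 K F] [FF1 K F'] in
theorem J1_van_restrict_iff (w : Place K F') (g : F) :
    Van w (algebraMap F F' g) ↔ Van (w.restrict F) g := by
  have he : 0 < w.ramificationIndex F := w.ramificationIndex_pos
  have he' : (0 : ℤ) < (w.ramificationIndex F : ℤ) := by exact_mod_cast he
  rw [van_iff_ord, van_iff_ord, w.ord_restrict, map_eq_zero, mul_pos_iff_of_pos_left he']

theorem J1_inertiaDeg (w : Place K F') : w.inertiaDeg F = 1 := by
  obtain ⟨y, hy⟩ := Fermat.Agent.S27.exists_transcendental K F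
  obtain ⟨y', hy'⟩ := Fermat.Agent.S27.exists_transcendental K F'
  have := Fermat.Agent.S27.finiteDimensional_adjoin hy
  have := Fermat.Agent.S27.finiteDimensional_adjoin hy'
  exact Fermat.Agent.S37.FFNorm.inertiaDeg_eq_one y hy y' hy' w

theorem J1_ord_norm (v : Place K F) {g : F'} (hg : g ≠ 0) :
    v.ord (Algebra.norm F g) = ∑ w ∈ v.fiber F', w.ord g := by
  obtain ⟨y, hy⟩ := Fermat.Agent.S27.exists_transcendental K F
  have := Fermat.Agent.S27.finiteDimensional_adjoin hy
  exact Fermat.Agent.S37.FFNorm.ord_norm_eq_sum y hy v (v.fiber F') (fun w => Place.mem_fiber) g hg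

/-- (PJ1) -/
theorem val_restrict (w : Place K F') (f : F) : val w (algebraMap F F' f) = val (w.restrict F) f := by
  by_cases hf : Reg (w.restrict F) f
  · refine val_eq_of_van w ?_
    have h1 := van_sub_val (w.restrict F) hf
    rw [← J1_van_restrict_iff, map_sub, ← IsScalarTower.algebraMap_apply] at h1
    exact h1
  · rw [val_of_not_reg _ hf, val_of_not_reg w (fun h => hf h)]

theorem divisorOf_algebraMap (f : F) :
    divisorOf (Ω := K) (algebraMap F F' f) = Divisor.pullback F' (divisorOf (Ω := K) f) := by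
  ext w
  rw [divisorOf_apply, Divisor.pullback_apply_eq_ord (fun v => divisorOf_apply f v) w]

theorem divisorOf_norm {g : F'} (hg : g ≠ 0) :
    divisorOf (Ω := K) (Algebra.norm F g) = Divisor.pushforward F (divisorOf (Ω := K) g) := by
  obtain ⟨y, hy⟩ := Fermat.Agent.S27.exists_transcendental K F
  obtain ⟨y', hy'⟩ := Fermat.Agent.S27.exists_transcendental K F'
  have := Fermat.Agent.S27.finiteDimensional_adjoin hy
  have := Fermat.Agent.S27.finiteDimensional_adjoin hy'
  ext v
  rw [divisorOf_apply]
  exact (Fermat.Agent.S37.FFNorm.pushforwardNormFormula y hy y' hy' g hg _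
    (fun w => divisorOf_apply g w) v).symm

theorem pushforward_apply' (D' : Divisor K F') (v : Place K F) :
    Divisor.pushforward F D' v = ∑ w ∈ v.fiber F', D' w := by
  classical
  rw [Divisor.pushforward_apply, ← Finset.sum_filter]
  refine Finset.sum_subset_zero_on_sdiff ?_ ?_ ?_
  · intro w hw
    rw [Finset.mem_filter] at hw
    exact Place.mem_fiber.mpr hw.2
  · intro w hw
    rw [Finset.mem_sdiff, Finset.mem_filter, Place.mem_fiber] at hw
    have : w ∉ D'.support := fun h => hw.2 ⟨h, hw.1⟩
    rwa [Finsupp.notMem_support_iff] at this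
  · intro w _
    rw [J1_inertiaDeg w]
    simp

theorem isDm_algebraMap' {e : ℕ} {f : F} (hf : IsDm K e f) : IsDm K e (algebraMap F F' f) := by
  refine ⟨(map_ne_zero _).2 hf.1, fun w => ?_⟩
  rw [w.ord_restrict]
  exact dvd_mul_of_dvd_right (hf.2 _) _

theorem isDm_norm {e : ℕ} {g : F'} (hg : IsDm K e g) : IsDm K e (Algebra.norm F g) := by
  refine ⟨Algebra.norm_ne_zero_iff.mpr hg.1, fun v => ?_⟩
  rw [J1_ord_norm v hg.1]
  exact Finset.dvd_sum fun w _ => hg.2 w

theorem Dv_algebraMap {e : ℕ} (he : e ≠ 0) {f : F} (hf : IsDm K e f) :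
    Dv K e (algebraMap F F' f) = Divisor.pullback F' (Dv K e f) := by
  refine (eq_Dv he ?_).symm
  rw [← map_zsmul, nsmul_Dv hf, divisorOf_algebraMap]

theorem Dv_norm {e : ℕ} (he : e ≠ 0) {g : F'} (hg : IsDm K e g) :
    Dv K e (Algebra.norm F g) = Divisor.pushforward F (Dv K e g) := by
  refine (eq_Dv he ?_).symm
  rw [← map_zsmul, nsmul_Dv hg, divisorOf_norm hg.1]

theorem J1_unitOn_pushforward {f : F} {D' : Divisor K F'} (h : UnitOn (algebraMap F F' f) D') :
    UnitOn f (Divisor.pushforward F D') := by
  refine ⟨fun h0 => h.1 (by rw [h0, map_zero]), fun v hv => ?_⟩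
  rw [pushforward_apply'] at hv
  obtain ⟨w, hw, hw0⟩ := Finset.exists_ne_zero_of_sum_ne_zero hv
  have h1 := h.2 w hw0
  rw [w.ord_restrict, Place.mem_fiber.mp hw] at h1
  have he : 0 < w.ramificationIndex F := w.ramificationIndex_pos
  exact (mul_eq_zero.mp h1).resolve_left (by exact_mod_cast he.ne')

/-- (PJ2) -/
theorem evalD_algebraMap_left {f : F} {D' : Divisor K F'} (h : UnitOn (algebraMap F F' f) D') :
    evalD (algebraMap F F' f) D' = evalD f (Divisor.pushforward F D') := by
  induction D' using Finsupp.induction with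
  | zero => rw [map_zero, evalD_zero, evalD_zero]
  | single_add w n D'' hw hn ih =>
    have hw' : D'' w = 0 := Finsupp.notMem_support_iff.mp hw
    have h1 : UnitOn (algebraMap F F' f) (Finsupp.single w n : Divisor K F') := by
      refine ⟨h.1, fun v hv => ?_⟩
      have hvw : v = w := by
        by_contra hne
        exact hv (Finsupp.single_eq_of_ne hne)
      subst hvw
      apply h.2
      rw [Finsupp.add_apply, Finsupp.single_eq_same, hw', add_zero]
      exact hn
    have h2 : UnitOn (algebraMap F F' f) D'' := by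
      refine ⟨h.1, fun v hv => ?_⟩
      have hvw : v ≠ w := by
        rintro rfl
        exact hv hw'
      apply h.2
      rw [Finsupp.add_apply, Finsupp.single_eq_of_ne hvw, zero_add]
      exact hv
    rw [evalD_add h1 h2, map_add,
      evalD_add (J1_unitOn_pushforward h1) (J1_unitOn_pushforward h2), ih h2,
      Divisor.pushforward_single, J1_inertiaDeg, evalD_single, evalD_single, val_restrict]
    simp

/-! ### TASK S15/W-J2 -/

omit [IsAlgClosed K] [CharZero K] [FF1 K F] in
/-- Lagrange interpolation: a polynomial of degree `≤ n` with regular values at `n + 1` constants has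
regular coefficients. -/
theorem Proj_coeff_reg (v : Place K F) (χ : Polynomial F) (n : ℕ) (hdeg : χ.natDegree ≤ n)
    (a : ℕ → K) (ha : Set.InjOn a (Finset.range (n + 1) : Set ℕ))
    (h : ∀ i ∈ Finset.range (n + 1), Reg v (χ.eval (algebraMap K F (a i)))) (k : ℕ) :
    Reg v (χ.coeff k) := by
  classical
  have hcard : (Finset.range (n + 1)).card = n + 1 := Finset.card_range _
  have key : χ = ∑ i ∈ Finset.range (n + 1), Polynomial.C (χ.eval (algebraMap K F (a i))) *
      (Lagrange.basis (Finset.range (n + 1)) a i).map (algebraMap K F) := by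
    refine Polynomial.eq_of_degrees_lt_of_eval_index_eq (v := fun i => algebraMap K F (a i))
      (Finset.range (n + 1)) (fun i hi j hj hij => ha hi hj ((algebraMap K F).injective hij))
      ?_ ?_ ?_
    · rw [hcard]
      refine lt_of_le_of_lt Polynomial.degree_le_natDegree ?_
      exact_mod_cast Nat.lt_succ_of_le hdeg
    · refine lt_of_le_of_lt (Polynomial.degree_sum_le _ _) ?_
      rw [Finset.sup_lt_iff (by rw [hcard]; exact WithBot.bot_lt_coe _)]
      intro i hi
      have hC : ∀ (c : F) (p : Polynomial F), (Polynomial.C c * p).degree ≤ p.degree := by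
        intro c p
        refine (Polynomial.degree_mul_le _ _).trans ?_
        calc (Polynomial.C c).degree + p.degree ≤ 0 + p.degree :=
              add_le_add_left Polynomial.degree_C_le _
          _ = p.degree := zero_add _
      refine lt_of_le_of_lt (hC _ _) ?_
      refine lt_of_le_of_lt Polynomial.degree_map_le ?_
      rw [Lagrange.degree_basis ha hi, hcard]
      exact_mod_cast Nat.lt_succ_self n
    · intro j hj
      rw [Polynomial.eval_finsetSum, Finset.sum_eq_single j]
      · rw [Polynomial.eval_mul, Polynomial.eval_C, Polynomial.eval_map,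
          Polynomial.eval₂_at_apply, Lagrange.eval_basis_self ha hj, map_one, mul_one]
      · intro i _ hij
        rw [Polynomial.eval_mul, Polynomial.eval_C, Polynomial.eval_map,
          Polynomial.eval₂_at_apply, Lagrange.eval_basis_of_ne hij hj, map_zero, mul_zero]
      · intro hj'
        exact absurd hj hj'
  rw [key, Polynomial.finsetSum_coeff]
  refine reg_sum v _ _ fun i hi => ?_
  rw [Polynomial.coeff_C_mul, Polynomial.coeff_map]
  exact Reg.mul v (h i hi) (reg_algebraMap v _)

/-- (PJ★) -/
theorem val_norm_eq_one {v : Place K F} {h : F'} (hh : ∀ w ∈ v.fiber F', Van w (h - 1)) :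
    Van v (Algebra.norm F h - 1) := by
  classical
  obtain ⟨y, hy⟩ := S27.exists_transcendental K F
  have := S27.finiteDimensional_adjoin hy
  obtain ⟨n, hn⟩ : ∃ n : ℕ, n = Module.finrank F F' := ⟨_, rfl⟩
  have hnpos : 0 < n := hn ▸ Module.finrank_pos
  -- the fibre is not empty
  have hne : (v.fiber F').Nonempty := by
    by_contra hemp
    rw [Finset.not_nonempty_iff_eq_empty] at hemp
    obtain ⟨ϖ, hϖ⟩ := S24.FF.exists_ord_eq_one v
    have hϖ0 : ϖ ≠ 0 := S24.FF.ne_zero_of_ord_ne_zero v (by omega)
    have h1 := S37.FFNorm.ord_norm_eq_sum (F' := F') y hy v (v.fiber F')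
      (fun w => Place.mem_fiber) (algebraMap F F' ϖ) (by simpa using hϖ0)
    rw [Algebra.norm_algebraMap, S24.FF.ord_pow, hϖ, mul_one, hemp, Finset.sum_empty, ← hn] at h1
    omega
  obtain ⟨χ, hχ⟩ : ∃ χ : Polynomial F, χ = (Algebra.lmul F F' h).charpoly := ⟨_, rfl⟩
  have hχmonic : χ.Monic := hχ ▸ LinearMap.charpoly_monic _
  have hχdeg : χ.natDegree = n := by rw [hχ, LinearMap.charpoly_natDegree, hn]
  have hχeval : ∀ t : F, χ.eval t = Algebra.norm F (algebraMap F F' t - h) := by
    intro t
    rw [hχ, LinearMap.eval_charpoly, Algebra.norm_apply, map_sub (Algebra.lmul F F'),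
      AlgHom.commutes]
  -- `χ(a)` is a unit at `v` for `a ≠ 1`
  have hunit : ∀ a : K, a ≠ 1 →
      Reg v (χ.eval (algebraMap K F a)) ∧ ¬ Van v (χ.eval (algebraMap K F a)) := by
    intro a ha
    rw [hχeval, ← IsScalarTower.algebraMap_apply]
    have hg : ∀ w ∈ v.fiber F', algebraMap K F' a - h ≠ 0 ∧ w.ord (algebraMap K F' a - h) = 0 := by
      intro w hw
      have e : algebraMap K F' a - h + (h - 1) = algebraMap K F' (a - 1) := by
        rw [map_sub, map_one]
        ring
      have h1 : Reg w (algebraMap K F' a - h) := by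
        have h2 := Reg.sub w (reg_algebraMap w (a - 1)) (hh w hw).reg
        rwa [← e, add_sub_cancel_right] at h2
      have h2 : ¬ Van w (algebraMap K F' a - h) := by
        intro hv
        have h3 := Van.add w hv (hh w hw)
        rw [e, van_algebraMap_iff] at h3
        exact ha (sub_eq_zero.1 h3)
      rw [van_iff_ord, not_or, not_lt] at h2
      exact ⟨h2.1, le_antisymm h2.2 ((reg_iff_ord w).1 h1)⟩
    obtain ⟨w0, hw0⟩ := hne
    have hg0 : algebraMap K F' a - h ≠ 0 := (hg w0 hw0).1
    have hord := S37.FFNorm.ord_norm_eq_sum (F' := F') y hy v (v.fiber F')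
      (fun w => Place.mem_fiber) _ hg0
    rw [Finset.sum_eq_zero (fun w hw => (hg w hw).2)] at hord
    have hN0 : Algebra.norm F (algebraMap K F' a - h) ≠ 0 := Algebra.norm_ne_zero_iff.2 hg0
    refine ⟨(reg_iff_ord v).2 hord.ge, ?_⟩
    rw [van_iff_ord, not_or, not_lt]
    exact ⟨hN0, hord.le⟩
  -- the coefficients are regular
  have hreg : ∀ k, Reg v (χ.coeff k) := by
    refine Proj_coeff_reg v χ n hχdeg.le (fun i => ((i + 2 : ℕ) : K)) ?_ ?_
    · intro i _ j _ hij
      have := Nat.cast_injective (R := K) hij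
      omega
    · intro i _
      refine (hunit _ ?_).1
      intro h1
      have : ((i + 2 : ℕ) : K) = ((1 : ℕ) : K) := by rw [h1, Nat.cast_one]
      have := Nat.cast_injective (R := K) this
      omega
  -- reduction
  have hlift : χ ∈ Polynomial.lifts v.toValuationSubring.subtype := by
    rw [Polynomial.lifts_iff_coeff_lifts]
    intro k
    exact ⟨⟨χ.coeff k, hreg k⟩, rfl⟩
  obtain ⟨q, hq, hqdeg, hqmonic⟩ := Polynomial.lifts_and_natDegree_eq_and_monic hlift hχmonic
  obtain ⟨χb, hχb⟩ : ∃ χb : Polynomial K, χb = q.map (valHom v) := ⟨_, rfl⟩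
  have hχbmonic : χb.Monic := hχb ▸ hqmonic.map _
  have hχbdeg : χb.natDegree = n := by rw [hχb, hqmonic.natDegree_map, hqdeg, hχdeg]
  have hχbeval : ∀ a : K, χb.eval a = val v (χ.eval (algebraMap K F a)) := by
    intro a
    have e1 : valHom v ⟨algebraMap K F a, reg_algebraMap v a⟩ = a := by
      rw [valHom_apply]
      exact val_algebraMap v a
    have e2 : χ.eval (algebraMap K F a) =
        ((q.eval ⟨algebraMap K F a, reg_algebraMap v a⟩ : v.toValuationSubring) : F) := by
      rw [← hq, Polynomial.eval_map]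
      exact Polynomial.eval₂_at_apply (p := q) v.toValuationSubring.subtype
        ⟨algebraMap K F a, reg_algebraMap v a⟩
    rw [e2, ← valHom_apply, hχb, Polynomial.eval_map]
    conv_lhs => rw [← e1]
    exact Polynomial.eval₂_at_apply _ _
  have hroots : ∀ r ∈ χb.roots, r = 1 := by
    intro r hr
    by_contra hr1
    have h1 := (Polynomial.mem_roots hχbmonic.ne_zero).1 hr
    rw [Polynomial.IsRoot.def, hχbeval] at h1
    exact (hunit r hr1).2 ((val_eq_zero_iff v (hunit r hr1).1).1 h1)
  have hsplit : χb.Splits := IsAlgClosed.splits χb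
  have h0 : χb.eval 0 = (-1) ^ n := by
    rw [hsplit.eval_eq_prod_roots_of_monic hχbmonic, Multiset.eq_replicate_of_mem hroots,
      Multiset.map_replicate, Multiset.prod_replicate, ← hsplit.natDegree_eq_card_roots, hχbdeg,
      zero_sub]
  have hN : Algebra.norm F h = (-1) ^ n * χ.eval 0 := by
    have e : -h = algebraMap F F' (-1) * h := by
      rw [map_neg, map_one, neg_one_mul]
    rw [hχeval, map_zero, zero_sub, e, map_mul, Algebra.norm_algebraMap, ← hn, ← mul_assoc,
      ← mul_pow]
    simp
  have hreg0 : Reg v (χ.eval 0) := by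
    rw [← Polynomial.coeff_zero_eq_eval_zero]
    exact hreg 0
  have hval0 : val v (χ.eval 0) = (-1) ^ n := by
    have := hχbeval 0
    rw [map_zero] at this
    rw [← this, h0]
  have hregm : Reg v ((-1 : F) ^ n) := Reg.pow v (Reg.neg v (reg_one v)) n
  have hvalN : val v (Algebra.norm F h) = 1 := by
    rw [hN, val_mul v hregm hreg0, hval0, val_pow v (Reg.neg v (reg_one v)),
      val_neg v (reg_one v), val_one, ← mul_pow]
    simp
  have hregN : Reg v (Algebra.norm F h) := by
    rw [hN]
    exact Reg.mul v hregm hreg0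
  have := (val_eq_iff v hregN).1 hvalN
  rwa [map_one] at this

/-! ### TASK S15/W-J3 -/

/-- (helper, W-J3) the norm of a function which is a unit above `v` is a unit at `v`. -/
theorem J3_ord_norm_eq_zero {v : Place K F} {g : F'} (hg : g ≠ 0)
    (h : ∀ w ∈ v.fiber F', w.ord g = 0) : v.ord (Algebra.norm F g) = 0 := by
  rw [← divisorOf_apply (Ω := K), divisorOf_norm hg, pushforward_apply']
  exact Finset.sum_eq_zero fun w hw => by rw [divisorOf_apply, h w hw]

/-- (PJ3') -/
theorem evalD_norm_divisorOf {f : F} {g : F'} (hf : f ≠ 0) (hg : g ≠ 0)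
    (h : Disj K (algebraMap F F' f) g) :
    evalD (Algebra.norm F g) (divisorOf (Ω := K) f)
      = evalD g (divisorOf (Ω := K) (algebraMap F F' f)) := by
  have hαf : algebraMap F F' f ≠ 0 := (map_ne_zero (algebraMap F F')).2 hf
  have hN : Algebra.norm F g ≠ 0 := Algebra.norm_ne_zero_iff.mpr hg
  have hd : Disj K (Algebra.norm F g) f := by
    intro v
    by_cases hv : v.ord f = 0
    · exact Or.inr hv
    · left
      exact J3_ord_norm_eq_zero hg fun w hw => by
        refine (h w).resolve_left ?_
        rw [Place.ord_restrict, Place.mem_fiber.1 hw]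
        exact mul_ne_zero (Int.natCast_ne_zero.2 (w.ramificationIndex_pos (F := F)).ne') hv
  rw [weil_reciprocity hN hf hd, divisorOf_norm hg,
    ← evalD_algebraMap_left (unitOn_divisorOf hαf h), weil_reciprocity hαf hg h]

/-- (PJ3) the value of a norm. -/
theorem val_norm {v : Place K F} {g : F'} (hg : g ≠ 0) (h : ∀ w ∈ v.fiber F', w.ord g = 0) :
    val v (Algebra.norm F g) = ∏ w ∈ v.fiber F', val w g ^ (w.ramificationIndex F) := by
  classical
  by_cases hne : (v.fiber F').Nonempty
  swap
  · rw [Finset.not_nonempty_iff_eq_empty] at hne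
    have h1 : Van v (Algebra.norm F g - 1) := val_norm_eq_one fun w hw => by
      rw [hne] at hw; exact absurd hw (Finset.notMem_empty w)
    rw [hne, Finset.prod_empty]
    refine val_eq_of_van v ?_
    rwa [map_one]
  obtain ⟨w0, hw0⟩ := hne
  obtain ⟨f, hf1⟩ := Fermat.Agent.S24.FF.exists_ord_eq_one v
  have hf : f ≠ 0 := Fermat.Agent.S24.FF.ne_zero_of_ord_ne_zero v (by rw [hf1]; exact one_ne_zero)
  set S : Finset (Place K F) := (divisorOf (Ω := K) f).support with hS
  have hSmem : ∀ v' : Place K F, v' ∈ S ↔ v'.ord f ≠ 0 := by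
    intro v'
    rw [hS, Finsupp.mem_support_iff, divisorOf_apply]
  have hvS : v ∈ S := (hSmem v).2 (by rw [hf1]; exact one_ne_zero)
  set T : Finset (Place K F') := S.biUnion fun v' => v'.fiber F' with hT
  have hTmem : ∀ w : Place K F', w ∈ T ↔ (w.restrict F).ord f ≠ 0 := by
    intro w
    rw [hT, Finset.mem_biUnion]
    constructor
    · rintro ⟨v', hv', hw⟩
      rw [Place.mem_fiber.1 hw]
      exact (hSmem v').1 hv'
    · intro hw
      exact ⟨w.restrict F, (hSmem _).2 hw, Place.restrict_mem_fiber w⟩
  -- weak approximation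
  obtain ⟨gt, hgt⟩ := exists_approx (Ω := K) T (fun w => if w.restrict F = v then g else 1)
    (fun _ => 1)
  have hgt1 : ∀ w ∈ v.fiber F', Van w (gt - g) := by
    intro w hw
    have hwv := Place.mem_fiber.1 hw
    have hwT : w ∈ T := (hTmem w).2 (by rw [hwv, hf1]; exact one_ne_zero)
    have := hgt w hwT
    simp only [hwv, if_true] at this
    rcases this with h1 | h1
    · rw [h1, sub_self]; exact van_zero w
    · exact van_of_ord_pos w (by omega)
  have hgt2 : ∀ w ∈ T, w.restrict F ≠ v → Van w (gt - 1) := by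
    intro w hwT hwv
    have := hgt w hwT
    simp only [hwv, if_false] at this
    rcases this with h1 | h1
    · rw [h1, sub_self]; exact van_zero w
    · exact van_of_ord_pos w (by omega)
  have hregg : ∀ w ∈ v.fiber F', Reg w g := fun w hw => (reg_iff_ord w).2 (h w hw).ge
  have hnvg : ∀ w ∈ v.fiber F', ¬ Van w g := fun w hw hv => by
    have := ord_pos_of_van w hv hg
    rw [h w hw] at this
    exact lt_irrefl _ this
  -- values of `gt`
  have hreg1 : ∀ w ∈ v.fiber F', Reg w gt := fun w hw => by
    have := ((hgt1 w hw).reg w).add w (hregg w hw)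
    rwa [sub_add_cancel] at this
  have hval1 : ∀ w ∈ v.fiber F', val w gt = val w g := fun w hw => by
    have := val_sub w (hreg1 w hw) (hregg w hw)
    rw [val_eq_zero_of_van w (hgt1 w hw)] at this
    exact (sub_eq_zero.1 this.symm)
  have hval2 : ∀ w ∈ T, w.restrict F ≠ v → val w gt = 1 := fun w hw hwv =>
    val_eq_of_van w (by rw [map_one]; exact hgt2 w hw hwv)
  have hreg2 : ∀ w ∈ T, w.restrict F ≠ v → Reg w gt := fun w hw hwv => by
    have := ((hgt2 w hw hwv).reg w).add w (reg_one w)
    rwa [sub_add_cancel] at this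
  have hgt0 : gt ≠ 0 := by
    rintro rfl
    have := hgt1 w0 hw0
    rw [zero_sub] at this
    have h2 := this.neg w0
    rw [neg_neg] at h2
    exact hnvg w0 hw0 h2
  have hord : ∀ w ∈ T, w.ord gt = 0 := by
    intro w hw
    by_cases hwv : w.restrict F = v
    · have hwf : w ∈ v.fiber F' := Place.mem_fiber.2 hwv
      refine ord_eq_zero_of_reg_of_not_van w (hreg1 w hwf) fun hv => ?_
      have h1 := hv.sub w (hgt1 w hwf)
      rw [sub_sub_cancel] at h1
      exact hnvg w hwf h1
    · refine ord_eq_zero_of_reg_of_not_van w (hreg2 w hw hwv) fun hv => ?_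
      have h1 := hv.sub w (hgt2 w hw hwv)
      rw [sub_sub_cancel] at h1
      exact not_van_one w h1
  have hdisj : Disj K (algebraMap F F' f) gt := by
    intro w
    by_cases hw : w ∈ T
    · exact Or.inr (hord w hw)
    · left
      rw [hTmem, not_not] at hw
      rw [Place.ord_restrict, hw, mul_zero]
  have key := evalD_norm_divisorOf hf hgt0 hdisj
  -- the left hand side
  have hL : evalD (Algebra.norm F gt) (divisorOf (Ω := K) f) = val v (Algebra.norm F g) := by
    rw [evalD_eq_prod _ _ S subset_rfl, Finset.prod_eq_single_of_mem v hvS]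
    · rw [divisorOf_apply, hf1, zpow_one]
      have hq : gt = g * (gt / g) := by field_simp
      have hq1 : Van v (Algebra.norm F (gt / g) - 1) := val_norm_eq_one fun w hw => by
        have : gt / g - 1 = (gt - g) * g⁻¹ := by field_simp
        rw [this]
        exact (hgt1 w hw).mul_right w (reg_inv_of_not_van w (hnvg w hw))
      have hq2 : Reg v (Algebra.norm F (gt / g)) := by
        have := (hq1.reg v).add v (reg_one v)
        rwa [sub_add_cancel] at this
      have hq3 : val v (Algebra.norm F (gt / g)) = 1 :=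
        val_eq_of_van v (by rw [map_one]; exact hq1)
      have hq4 : Reg v (Algebra.norm F g) := (reg_iff_ord v).2 (J3_ord_norm_eq_zero hg h).ge
      conv_lhs => rw [hq]
      rw [map_mul, val_mul v hq4 hq2, hq3, mul_one]
    · intro v' hv' hne
      have h1 : Van v' (Algebra.norm F gt - 1) := val_norm_eq_one fun w hw => by
        have hwv := Place.mem_fiber.1 hw
        exact hgt2 w ((hTmem w).2 (by rw [hwv]; exact (hSmem v').1 hv')) (by rw [hwv]; exact hne)
      rw [val_eq_of_van v' (c := 1) (by rw [map_one]; exact h1), one_zpow]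
  -- the right hand side
  have hR : evalD gt (divisorOf (Ω := K) (algebraMap F F' f))
      = ∏ w ∈ v.fiber F', val w g ^ (w.ramificationIndex F) := by
    have hsub : (divisorOf (Ω := K) (algebraMap F F' f)).support ⊆ T := by
      intro w hw
      rw [Finsupp.mem_support_iff, divisorOf_apply, Place.ord_restrict] at hw
      exact (hTmem w).2 (right_ne_zero_of_mul hw)
    have hfT : v.fiber F' ⊆ T := fun w hw =>
      (hTmem w).2 (by rw [Place.mem_fiber.1 hw, hf1]; exact one_ne_zero)
    rw [evalD_eq_prod _ _ T hsub, ← Finset.prod_subset hfT]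
    · refine Finset.prod_congr rfl fun w hw => ?_
      rw [divisorOf_apply, Place.ord_restrict, Place.mem_fiber.1 hw, hf1, mul_one, zpow_natCast,
        hval1 w hw]
    · intro w hw hwf
      rw [hval2 w hw (fun hwv => hwf (Place.mem_fiber.2 hwv)), one_zpow]
  rw [← hL, key, hR]

/-! ### TASK S15/W-J4 -/

/-- (PJ4) -/
theorem evalD_norm {g : F'} {D : Divisor K F} (h : UnitOn g (Divisor.pullback F' D)) :
    evalD (Algebra.norm F g) D = evalD g (Divisor.pullback F' D) := by
  classical
  have hsupp : (Divisor.pullback F' D).support ⊆ D.support.biUnion (fun v => v.fiber F') := by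
    intro w hw
    exact Finset.mem_biUnion.2 ⟨w.restrict F,
      Divisor.restrict_mem_support_of_mem_support_pullback hw, Place.restrict_mem_fiber w⟩
  rw [evalD_eq_prod g _ _ hsupp, Finset.prod_biUnion, evalD_eq_prod _ D D.support subset_rfl]
  · refine Finset.prod_congr rfl fun v hv => ?_
    have hv0 : D v ≠ 0 := Finsupp.mem_support_iff.1 hv
    have hord : ∀ w ∈ v.fiber F', w.ord g = 0 := by
      intro w hw
      refine h.2 w ?_
      rw [Divisor.pullback_apply, Place.mem_fiber.1 hw]
      exact mul_ne_zero (by exact_mod_cast (w.ramificationIndex_pos (F := F)).ne') hv0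
    rw [val_norm h.1 hord, ← Finset.prod_zpow]
    refine Finset.prod_congr rfl fun w hw => ?_
    rw [Divisor.pullback_apply, Place.mem_fiber.1 hw, zpow_mul, zpow_natCast]
  · intro v _ v' _ hvv'
    rw [Function.onFun, Finset.disjoint_left]
    intro w hw hw'
    exact hvv' ((Place.mem_fiber.1 hw).symm.trans (Place.mem_fiber.1 hw'))

/-- (PJ6) **the projection formula**. -/
theorem e1_proj {e : ℕ} (he : e ≠ 0) {f : F} {g : F'} (hf : IsDm K e f) (hg : IsDm K e g) :
    e1 K e (algebraMap F F' f) g = e1 K e f (Algebra.norm F g) := by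
  have hαf : IsDm K e (algebraMap F F' f) := isDm_algebraMap' hf
  obtain ⟨k, hk, hd⟩ := exists_move_disj he hαf.1 hg
  set G := g * k ^ e with hG
  have hGd : IsDm K e G := hg.mul (isDm_pow e hk)
  have hNk : Algebra.norm F k ≠ 0 := Algebra.norm_ne_zero_iff.2 hk
  have hNG : IsDm K e (Algebra.norm F G) := isDm_norm hGd
  have hd' : Disj K f (Algebra.norm F G) := by
    intro v
    by_cases hv : v.ord f = 0
    · exact Or.inl hv
    right
    have h1 := DFunLike.congr_fun (divisorOf_norm (K := K) (F := F) hGd.1) v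
    rw [divisorOf_apply, pushforward_apply'] at h1
    rw [h1]
    refine Finset.sum_eq_zero fun w hw => ?_
    rw [divisorOf_apply]
    refine (hd w).resolve_left ?_
    exact w.ord_algebraMap_ne_zero_of_restrict_eq hv (Place.mem_fiber.1 hw)
  have h1 : evalD (algebraMap F F' f) (Dv K e G) = evalD f (Dv K e (Algebra.norm F G)) := by
    rw [evalD_algebraMap_left (unitOn_Dv hαf.1 hd e), Dv_norm he hGd]
  have h2 : evalD G (Dv K e (algebraMap F F' f)) = evalD (Algebra.norm F G) (Dv K e f) := by
    have h3 := unitOn_Dv hGd.1 hd.symm e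
    rw [Dv_algebraMap he hf] at h3 ⊢
    exact (evalD_norm h3).symm
  rw [e1_eq_E_mul_pow he hαf hg hk hd, ← e1_mul_pow_right he hf (isDm_norm hg) hNk, ← map_pow,
    ← map_mul, e1_eq_E he hf hNG hd']
  unfold E
  rw [h1, h2]

end Fermat.Agent.S15.W
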