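import Fermat.Agent.S15.W.Eval
import Fermat.Agent.S37.Red.NormPoly
import Fermat.Agent.S27.A.Charpoly

/-!
# S15 / W / Recip : WEIL RECIPROCITY (disjoint supports), `K` algebraically closed of characteristic `0`

`weil_reciprocity : f ≠ 0 → g ≠ 0 → Disj K f g → f(div g) = g(div f)`.

PROOF (norm to `K(x)`, `x := f`; no tame symbols, no completions).  If `f` is algebraic over `K` it is a constant `c`
(`K` alg. closed): `c(div g) = c ^ deg (div g) = 1 = g(0)`.  So let `x = f` be transcendental, `n = [F : K(x)]`,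
`R = N_{F/K(x)} g`.
(R1) `exists_clear_poles hx g {0}` gives `w ∈ K[X]` monic, `w(0) ≠ 0`, `g₁ := w(x) g` integral over `K[x]`
     (`g` is regular at the zeros of `x` by `Disj`); `exists_norm_poly` for `g₁` gives `G₁` with `N g₁ = G₁(x)` and
     `rootMultiplicity c G₁ = ∑_{v | c} ord_v g₁ = ∑_{v | c} ord_v g + n * rootMultiplicity c w`
     (`ord_v (w(x)) = ord_v (x - c) * rootMultiplicity c w` for `v | c`, `sum_ord_over`).  `N (w(x)) = w(x) ^ n`.
(R2) value at `0`: `G₁(0) / w(0) ^ n = ∏_{v | x = 0} g(v) ^ ord_v x`:  `S27.charpoly_ordGE` (`u = x`, `φ = g`, `i = 0`),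
     `N g = (-1) ^ n * charpoly.coeff 0`.
(R3) value at `∞`: the same with `u = x⁻¹` (`K⟮x⁻¹⟯ = K⟮x⟯`): `R - a` vanishes at a pole `v∞` of `x`, `a = ∏_{v | x = ∞} g(v) ^ (- ord_v x) ≠ 0`;
     for polynomials `ord_{v∞} (P(x)) = natDegree P * ord_{v∞} x`, so `natDegree G₁ = n * natDegree w` and
     `leadingCoeff G₁ / leadingCoeff w ^ n = a`.
(R4) `∏_c c ^ rootMultiplicity c G = (-1) ^ natDegree G * G(0) / leadingCoeff G` for `G(0) ≠ 0` (`K` alg. closed: `G` splits).
(R5) regrouping: `x(div g) = ∏_v x(v) ^ ord_v g = ∏_{c ≠ 0} c ^ (∑_{v | c} ord_v g)`.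
(R6) `x(div g) = [(-1)^{deg G₁} G₁(0)/lc G₁] / [(-1)^{deg w} w(0)/lc w]^n = (G₁(0)/w(0)^n) / (lc G₁/lc w^n) = g(div x)`.
-/

set_option autoImplicit false

namespace Fermat.Agent.S15.W

open AlgebraicCurve Fermat.Agent.S26 Fermat.Agent.S37.Red Polynomial IntermediateField

variable {K F : Type*} [Field K] [Field F] [Algebra K F] [IsAlgClosed K] [FF1 K F]

/-- the two notions of value agree. -/
theorem val_eq_S27 (v : Place K F) (f : F) : Fermat.Agent.S27.val v f = val v f := by
  have hiff : ∀ z : F, Fermat.Agent.S27.OrdGE v 1 z ↔ Van v z := by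
    intro z
    rw [van_iff_ord, Fermat.Agent.S27.OrdGE]
    constructor
    · rintro (h | h)
      · exact Or.inl h
      · exact Or.inr (by omega)
    · rintro (h | h)
      · exact Or.inl h
      · exact Or.inr (by omega)
  by_cases h : ∃ c : K, Van v (f - algebraMap K F c)
  · obtain ⟨c, hc⟩ := h
    rw [val_eq_of_van v hc, Fermat.Agent.S27.val_eq_of ((hiff _).mpr hc)]
  · have h' : ¬ ∃ c : K, Fermat.Agent.S27.OrdGE v 1 (f - algebraMap K F c) := by
      rintro ⟨c, hc⟩
      exact h ⟨c, (hiff _).mp hc⟩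
    unfold Fermat.Agent.S27.val Fermat.Agent.S37.Red.val
    rw [dif_neg h, dif_neg h']

/-- (R1) TASK S15/W-R1. -/
theorem exists_norm_data {x g : F} (hx : Transcendental K x) (hg : g ≠ 0)
    (h0 : ∀ v : Place K F, 0 < v.ord x → v.ord g = 0) :
    ∃ G w : Polynomial K, G ≠ 0 ∧ w ≠ 0 ∧ w.eval 0 ≠ 0 ∧
      algebraMap K⟮x⟯ F (Algebra.norm K⟮x⟯ g) * aeval x w ^ Module.finrank K⟮x⟯ F = aeval x G ∧
      ∀ c : K, (G.rootMultiplicity c : ℤ) - Module.finrank K⟮x⟯ F * (w.rootMultiplicity c : ℤ)
        = ∑ᶠ (v : Place K F) (_ : Over x c v), v.ord g := by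
  have hx0 : x ≠ 0 := fun h => hx (h ▸ isAlgebraic_zero)
  have hfd : FiniteDimensional K⟮x⟯ F := finiteDimensional_adjoin_of_transcendental hx
  obtain ⟨w, hwm, hw0, hint⟩ := exists_clear_poles hx g {0} (by
    intro v hreg hval
    have hv : Van v x := (val_eq_zero_iff v hreg).mp hval
    rw [reg_iff_ord, h0 v (ord_pos_of_van v hv hx0)])
  have hwne : w ≠ 0 := hwm.ne_zero
  have hwx : aeval x w ≠ 0 := fun h => hwne ((transcendental_iff.mp hx) w h)
  have hg1 : aeval x w * g ≠ 0 := mul_ne_zero hwx hg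
  obtain ⟨G, hG0, hGN, hGr⟩ := exists_norm_poly hx hint hg1
  obtain ⟨G', -, hG'N, hG'r⟩ := exists_norm_poly hx (intK_aeval (x := x) w) hwx
  have hG' : G' = w ^ Module.finrank K⟮x⟯ F :=
    NormPoly.IsNP.unique hx hG'N (NormPoly.isNP_aeval x w)
  refine ⟨G, w, hG0, hwne, hw0 0 rfl, ?_, fun c => ?_⟩
  · rw [← hGN, map_mul, map_mul, hG'N, hG', map_pow, mul_comm]
  · have h1 := hGr c
    have h2 := hG'r c
    rw [hG', NormPoly.rootMultiplicity_pow' c w hwne] at h2
    rw [h1]
    have h3 : ∑ᶠ (v : Place K F) (_ : Over x c v), v.ord (aeval x w * g)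
        = ∑ᶠ (v : Place K F) (_ : Over x c v), v.ord (aeval x w)
          + ∑ᶠ (v : Place K F) (_ : Over x c v), v.ord g := by
      have h4 := finsum_mem_add_distrib (s := {v : Place K F | Over x c v})
        (f := fun v => v.ord (aeval x w)) (g := fun v => v.ord g) (finite_over hx c)
      refine Eq.trans ?_ h4
      refine finsum_congr fun v => finsum_congr fun _ => ?_
      exact v.ord_mul hwx hg
    rw [h3, ← h2]
    push_cast
    ring

/-- (R2) TASK S15/W-R2: the value of the norm at `u = 0`. -/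
theorem van_norm_sub [CharZero K] {u g : F} (hu : Transcendental K u) (hg : g ≠ 0)
    (h0 : ∀ v : Place K F, 0 < v.ord u → v.ord g = 0) {w : Place K F} (hw : 0 < w.ord u) :
    Van w (algebraMap K⟮u⟯ F (Algebra.norm K⟮u⟯ g) -
      algebraMap K F (∏ v ∈ Fermat.Agent.S27.zeros K u, val v g ^ (v.ord u).toNat)) := by
  have hfd : FiniteDimensional K⟮u⟯ F := finiteDimensional_adjoin_of_transcendental hu
  have hφ : ∀ v : Place K F, 0 < v.ord u → Fermat.Agent.S27.OrdGE v 0 g :=
    fun v hv => Or.inr (h0 v hv).ge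
  have h1 := Fermat.Agent.S27.charpoly_ordGE hu hφ hw 0
  have hN : Algebra.norm K⟮u⟯ g
      = (-1) ^ Module.finrank K⟮u⟯ F * (LinearMap.mulLeft K⟮u⟯ g).charpoly.coeff 0 := by
    rw [Algebra.norm_apply, ← LinearMap.det_eq_sign_charpoly_coeff]
    rfl
  have hsum : ∑ v ∈ Fermat.Agent.S27.zeros K u, (v.ord u).toNat = Module.finrank K⟮u⟯ F := by
    have h2 := Fermat.Agent.S27.sum_ord_zeros hu
    have h3 : ((∑ v ∈ Fermat.Agent.S27.zeros K u, (v.ord u).toNat : ℕ) : ℤ)
        = ∑ v ∈ Fermat.Agent.S27.zeros K u, v.ord u := by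
      rw [Nat.cast_sum]
      refine Finset.sum_congr rfl fun v hv => ?_
      rw [Fermat.Agent.S27.mem_zeros] at hv
      exact Int.toNat_of_nonneg hv.le
    exact_mod_cast h3.trans h2
  have hc : (∏ v ∈ Fermat.Agent.S27.zeros K u,
      (Polynomial.X - Polynomial.C (Fermat.Agent.S27.val v g)) ^ (v.ord u).toNat).coeff 0
      = (-1) ^ Module.finrank K⟮u⟯ F *
        ∏ v ∈ Fermat.Agent.S27.zeros K u, val v g ^ (v.ord u).toNat := by
    rw [coeff_zero_eq_eval_zero, eval_prod, ← hsum, ← Finset.prod_pow_eq_pow_sum,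
      ← Finset.prod_mul_distrib]
    refine Finset.prod_congr rfl fun v _ => ?_
    rw [eval_pow, eval_sub, eval_X, eval_C, val_eq_S27, zero_sub, neg_pow]
  rw [hc] at h1
  have h4 : Van w (algebraMap K⟮u⟯ F ((LinearMap.mulLeft K⟮u⟯ g).charpoly.coeff 0) -
      algebraMap K F ((-1) ^ Module.finrank K⟮u⟯ F *
        ∏ v ∈ Fermat.Agent.S27.zeros K u, val v g ^ (v.ord u).toNat)) := by
    rw [van_iff_ord]
    rcases h1 with h | h
    · exact Or.inl h
    · exact Or.inr (by omega)
  have h5 := Van.mul_left w (f := (-1) ^ Module.finrank K⟮u⟯ F)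
    (((reg_one w).neg w).pow w _) h4
  convert h5 using 1
  rw [hN, map_mul, map_mul, map_pow, map_pow, map_neg, map_neg, map_one, map_one, mul_sub,
    ← mul_assoc, ← pow_add, ← two_mul, pow_mul]
  simp

/-- the norm does not change if `u` is replaced by `u⁻¹`. -/
theorem norm_adjoin_inv (u g : F) :
    algebraMap K⟮u⁻¹⟯ F (Algebra.norm K⟮u⁻¹⟯ g) = algebraMap K⟮u⟯ F (Algebra.norm K⟮u⟯ g) := by
  have key : ∀ E E' : IntermediateField K F, E = E' →
      algebraMap E F (Algebra.norm E g) = algebraMap E' F (Algebra.norm E' g) := by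
    rintro E E' rfl
    rfl
  exact key _ _ (adjoin_simple_inv_eq u)

omit [IsAlgClosed K] [FF1 K F] in
theorem R3_aeval_reverse {x : F} (hx0 : x ≠ 0) (P : Polynomial K) :
    aeval x P = aeval x⁻¹ P.reverse * x ^ P.natDegree := by
  let _ : Invertible x := invertibleOfNonzero hx0
  have := eval₂_reverse_mul_pow (algebraMap K F) x P
  rw [invOf_eq_inv] at this
  rw [aeval_def, aeval_def, this]

/-- (R3a) TASK S15/W-R3: a quotient of polynomials in `x` with a finite nonzero value at a pole of `x`. -/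
theorem leadingCoeff_of_van_at_pole {x : F} {v : Place K F} (hv : v.ord x < 0) {G H : Polynomial K}
    (hG : G ≠ 0) (hH : H ≠ 0) {R : F} (hR : R * aeval x H = aeval x G) {a : K} (ha : a ≠ 0)
    (h : Van v (R - algebraMap K F a)) :
    G.natDegree = H.natDegree ∧ G.leadingCoeff = a * H.leadingCoeff := by
  have hx0 : x ≠ 0 := by
    rintro rfl
    simp at hv
  have hy : Van v x⁻¹ := van_of_ord_pos v (by rw [v.ord_inv]; omega)
  have hyr : Reg v x⁻¹ := hy.reg v
  have hy0 : val v x⁻¹ = 0 := val_eq_zero_of_van v hy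
  have hrev : ∀ P : Polynomial K, aeval x P = aeval x⁻¹ P.reverse * x ^ P.natDegree :=
    fun P => R3_aeval_reverse hx0 P
  have hval : ∀ P : Polynomial K, val v (aeval x⁻¹ P.reverse) = P.leadingCoeff := by
    intro P
    rw [val_aeval v hyr, hy0, ← coeff_zero_eq_eval_zero, coeff_zero_reverse]
  have hreg : ∀ P : Polynomial K, Reg v (aeval x⁻¹ P.reverse) := fun P => hyr.aeval v _
  have hRr : Reg v R := by
    have := (h.reg v).add v (reg_algebraMap v a)
    rwa [sub_add_cancel] at this
  have hRv : val v R = a := val_eq_of_van v h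
  have hlG : G.leadingCoeff ≠ 0 := leadingCoeff_ne_zero.mpr hG
  have hlH : H.leadingCoeff ≠ 0 := leadingCoeff_ne_zero.mpr hH
  rw [hrev G, hrev H] at hR
  have hdeg : G.natDegree = H.natDegree := by
    rcases lt_trichotomy G.natDegree H.natDegree with hlt | heq | hgt
    · exfalso
      obtain ⟨d, hd⟩ := Nat.exists_eq_add_of_lt hlt
      have h1 : R * aeval x⁻¹ H.reverse = aeval x⁻¹ G.reverse * x⁻¹ ^ (d + 1) := by
        rw [hd, show G.natDegree + d + 1 = G.natDegree + (d + 1) by ring, pow_add] at hR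
        have hxd : x ^ (d + 1) ≠ 0 := pow_ne_zero _ hx0
        have hxG : x ^ G.natDegree ≠ 0 := pow_ne_zero _ hx0
        rw [inv_pow]
        field_simp
        field_simp at hR
        linear_combination hR
      have h2 := congrArg (val v) h1
      rw [val_mul v hRr (hreg H), val_mul v (hreg G) (hyr.pow v _), val_pow v hyr, hy0, hRv, hval,
        zero_pow (Nat.succ_ne_zero d), mul_zero] at h2
      exact mul_ne_zero ha hlH h2
    · exact heq
    · exfalso
      obtain ⟨d, hd⟩ := Nat.exists_eq_add_of_lt hgt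
      have h1 : R * aeval x⁻¹ H.reverse * x⁻¹ ^ (d + 1) = aeval x⁻¹ G.reverse := by
        rw [hd, show H.natDegree + d + 1 = H.natDegree + (d + 1) by ring, pow_add] at hR
        have hxd : x ^ (d + 1) ≠ 0 := pow_ne_zero _ hx0
        have hxG : x ^ H.natDegree ≠ 0 := pow_ne_zero _ hx0
        rw [inv_pow]
        field_simp
        field_simp at hR
        linear_combination hR
      have h2 := congrArg (val v) h1
      rw [val_mul v (hRr.mul v (hreg H)) (hyr.pow v _), val_pow v hyr, hy0,
        zero_pow (Nat.succ_ne_zero d), mul_zero, hval] at h2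
      exact hlG h2.symm
  refine ⟨hdeg, ?_⟩
  rw [hdeg, ← mul_assoc] at hR
  have h1 := mul_right_cancel₀ (pow_ne_zero _ hx0) hR
  have h2 := congrArg (val v) h1
  rw [val_mul v hRr (hreg H), hRv, hval, hval] at h2
  exact h2.symm

/-- (R3b) the same at a zero of `x`. -/
theorem eval_zero_of_van_at_zero {x : F} {v : Place K F} (hv : 0 < v.ord x) {G H : Polynomial K}
    {R : F} (hR : R * aeval x H = aeval x G) {a : K}
    (h : Van v (R - algebraMap K F a)) :
    G.eval 0 = a * H.eval 0 := by
  have hx : Van v x := van_of_ord_pos v hv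
  have hxr : Reg v x := hx.reg v
  have hx0 : val v x = 0 := val_eq_zero_of_van v hx
  have hRr : Reg v R := by
    have := (h.reg v).add v (reg_algebraMap v a)
    rwa [sub_add_cancel] at this
  have hRv : val v R = a := val_eq_of_van v h
  have h2 := congrArg (val v) hR
  rw [val_mul v hRr (hxr.aeval v _), val_aeval v hxr, val_aeval v hxr, hx0, hRv] at h2
  exact h2.symm

/-- (R4) TASK S15/W-R4 (Mathlib only). -/
theorem finprod_pow_rootMultiplicity {G : Polynomial K} (hG : G.eval 0 ≠ 0) :
    ∏ᶠ c : K, c ^ G.rootMultiplicity c = (-1) ^ G.natDegree * G.eval 0 / G.leadingCoeff := by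
  classical
  have hG0 : G ≠ 0 := by
    rintro rfl
    simp at hG
  have hlc : G.leadingCoeff ≠ 0 := leadingCoeff_ne_zero.2 hG0
  have hsplit : G.Splits := IsAlgClosed.splits G
  have hcard : Multiset.card G.roots = G.natDegree := hsplit.natDegree_eq_card_roots.symm
  have hprod : G = C G.leadingCoeff * (G.roots.map fun a => X - C a).prod :=
    hsplit.eq_prod_roots
  have h1 : ∏ᶠ c : K, c ^ G.rootMultiplicity c = G.roots.prod := by
    rw [Finset.prod_multiset_count, finprod_eq_prod_of_mulSupport_subset]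
    · refine Finset.prod_congr rfl fun c _ => ?_
      rw [count_roots]
    · intro c hc
      rw [Function.mem_mulSupport] at hc
      simp only [Finset.mem_coe, Multiset.mem_toFinset]
      by_contra h
      apply hc
      rw [← count_roots, Multiset.count_eq_zero_of_notMem h, pow_zero]
  have h2 : G.eval 0 = G.leadingCoeff * ((-1) ^ G.natDegree * G.roots.prod) := by
    conv_lhs => rw [hprod]
    rw [eval_mul, eval_C, eval_multiset_prod, Multiset.map_map]
    congr 1
    have : (G.roots.map ((fun p => eval 0 p) ∘ fun a => X - C a)) = G.roots.map (fun a => (-1) * a) := by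
      refine Multiset.map_congr rfl fun a _ => ?_
      simp
    rw [this, Multiset.prod_map_mul, Multiset.map_const', Multiset.prod_replicate, hcard,
      Multiset.map_id']
  rw [h1, h2]
  field_simp
  rw [← pow_mul, mul_comm G.natDegree 2, pow_mul]
  simp


omit [Field F] [Algebra K F] [IsAlgClosed K] [FF1 K F] in
/-- (helper, W-R5) `c ^ ∑ = ∏ c ^`. -/
theorem R5_zpow_sum {ι : Type*} {c : K} (hc : c ≠ 0) (s : Finset ι) (f : ι → ℤ) :
    c ^ (∑ i ∈ s, f i) = ∏ i ∈ s, c ^ f i := by
  classical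
  induction s using Finset.induction_on with
  | empty => simp
  | insert a s ha ih => rw [Finset.sum_insert ha, Finset.prod_insert ha, zpow_add₀ hc, ih]

/-- (R5) TASK S15/W-R5: regrouping. -/
theorem evalD_divisorOf_eq_finprod {x g : F} (hx : Transcendental K x) (hg : g ≠ 0)
    (h : Disj K x g) :
    evalD x (divisorOf (Ω := K) g) = ∏ᶠ c : K, c ^ (∑ᶠ (v : Place K F) (_ : Over x c v), v.ord g) := by
  classical
  obtain ⟨S, hS⟩ : ∃ S : Finset (Place K F), S = (divisorOf (Ω := K) g).support := ⟨_, rfl⟩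
  have hSmem : ∀ v : Place K F, v ∈ S ↔ v.ord g ≠ 0 := by
    intro v
    rw [hS, Finsupp.mem_support_iff, divisorOf_apply]
  have hx0 : x ≠ 0 := by
    rintro rfl
    exact hx (by simpa using isAlgebraic_zero (R := K) (A := F))
  -- on `S` the function `x` is a unit
  have hunit : ∀ v : Place K F, v ∈ S → Reg v x ∧ val v x ≠ 0 := by
    intro v hv
    have h0 : v.ord x = 0 := (h v).resolve_right ((hSmem v).1 hv)
    have hreg : Reg v x := (reg_iff_ord v).2 h0.ge
    refine ⟨hreg, fun hval => ?_⟩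
    have h1 := ord_pos_of_van v ((val_eq_zero_iff v hreg).1 hval) hx0
    omega
  have hL : evalD x (divisorOf (Ω := K) g) = ∏ v ∈ S, val v x ^ v.ord g := by
    rw [evalD, Finsupp.prod, ← hS]
    exact Finset.prod_congr rfl fun v _ => by rw [divisorOf_apply]
  -- the exponents
  have hexp : ∀ c : K, ∑ᶠ (v : Place K F) (_ : Over x c v), v.ord g
      = ∑ v ∈ S.filter (fun v : Place K F => val v x = c), v.ord g := by
    intro c
    refine finsum_mem_eq_sum_of_inter_support_eq (s := {v | Over x c v}) _ ?_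
    ext v
    simp only [Set.mem_inter_iff, Set.mem_ofPred_eq, Function.mem_support, Finset.coe_filter,
      and_congr_left_iff]
    intro hv0
    constructor
    · intro hov
      exact ⟨(hSmem v).2 hv0, hov.2⟩
    · rintro ⟨hvS, hc⟩
      exact ⟨(hunit v hvS).1, hc⟩
  have hterm : ∀ c : K, c ^ (∑ᶠ (v : Place K F) (_ : Over x c v), v.ord g)
      = ∏ v ∈ S.filter (fun v : Place K F => val v x = c), val v x ^ v.ord g := by
    intro c
    rw [hexp c]
    by_cases hc : c = 0
    · have hemp : S.filter (fun v : Place K F => val v x = c) = ∅ := by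
        rw [Finset.filter_eq_empty_iff]
        intro v hv hvc
        exact (hunit v hv).2 (hvc.trans hc)
      rw [hemp, Finset.sum_empty, Finset.prod_empty, zpow_zero]
    · rw [R5_zpow_sum hc]
      refine Finset.prod_congr rfl fun v hv => ?_
      rw [(Finset.mem_filter.1 hv).2]
  rw [hL, finprod_congr hterm,
    finprod_eq_prod_of_mulSupport_subset (s := S.image fun v : Place K F => val v x)]
  · exact (Finset.prod_fiberwise_of_maps_to (fun v hv => Finset.mem_image_of_mem _ hv) _).symm
  · intro c hc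
    rw [Function.mem_mulSupport] at hc
    by_contra hcT
    apply hc
    have hemp : S.filter (fun v : Place K F => val v x = c) = ∅ := by
      rw [Finset.filter_eq_empty_iff]
      intro v hv hvc
      exact hcT (Finset.mem_coe.2 (Finset.mem_image.2 ⟨v, hv, hvc⟩))
    rw [hemp, Finset.prod_empty]

/-- `g(div x)` in terms of zeros and poles. -/
theorem evalD_divisorOf_eq_div [CharZero K] {x g : F} (hx : Transcendental K x) :
    evalD g (divisorOf (Ω := K) x) =
      (∏ v ∈ Fermat.Agent.S27.zeros K x, val v g ^ (v.ord x).toNat) /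
      (∏ v ∈ Fermat.Agent.S27.zeros K x⁻¹, val v g ^ (v.ord x⁻¹).toNat) := by
  classical
  have hsupp : (divisorOf (Ω := K) x).support
      = Fermat.Agent.S27.zeros K x ∪ Fermat.Agent.S27.zeros K x⁻¹ := by
    ext v
    rw [Finsupp.mem_support_iff, divisorOf_apply, Finset.mem_union, Fermat.Agent.S27.mem_zeros,
      Fermat.Agent.S27.mem_zeros, Place.ord_inv]
    omega
  have hdisj : Disjoint (Fermat.Agent.S27.zeros K x) (Fermat.Agent.S27.zeros K x⁻¹) := by
    rw [Finset.disjoint_left]
    intro v h1 h2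
    rw [Fermat.Agent.S27.mem_zeros] at h1 h2
    rw [Place.ord_inv] at h2
    omega
  rw [evalD, Finsupp.prod, hsupp, Finset.prod_union hdisj, div_eq_mul_inv,
    ← Finset.prod_inv_distrib]
  congr 1
  · refine Finset.prod_congr rfl fun v hv => ?_
    rw [Fermat.Agent.S27.mem_zeros] at hv
    rw [divisorOf_apply, ← zpow_natCast, Int.toNat_of_nonneg hv.le]
  · refine Finset.prod_congr rfl fun v hv => ?_
    rw [Fermat.Agent.S27.mem_zeros] at hv
    rw [divisorOf_apply, ← zpow_natCast, Int.toNat_of_nonneg hv.le, Place.ord_inv, zpow_neg,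
      inv_inv]

/-- a transcendental function has a zero. -/
theorem R6_exists_zero [CharZero K] {u : F} (hu : Transcendental K u) :
    ∃ v : Place K F, 0 < v.ord u := by
  have hfd : FiniteDimensional K⟮u⟯ F := Fermat.Agent.S27.finiteDimensional_adjoin hu
  have h1 := Fermat.Agent.S27.sum_ord_zeros hu
  have h2 : 0 < Module.finrank K⟮u⟯ F := Module.finrank_pos
  by_contra hcon
  push Not at hcon
  have h3 : Fermat.Agent.S27.zeros K u = ∅ := by
    ext v
    simp only [Fermat.Agent.S27.mem_zeros, Finset.notMem_empty, iff_false, not_lt]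
    exact hcon v
  rw [h3, Finset.sum_empty] at h1
  omega

omit [IsAlgClosed K] in
theorem R6_finite_mulSupport (G : Polynomial K) (hG : G ≠ 0) :
    (Function.mulSupport fun c : K => c ^ G.rootMultiplicity c).Finite := by
  classical
  refine (G.roots.toFinset.finite_toSet).subset ?_
  intro c hc
  rw [Function.mem_mulSupport] at hc
  rw [Finset.mem_coe, Multiset.mem_toFinset, mem_roots hG]
  by_contra hroot
  apply hc
  rw [rootMultiplicity_eq_zero hroot, pow_zero]

/-- the product of the values of `g` at the zeros of `u` is nonzero. -/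
theorem R6_prod_ne_zero [CharZero K] {u g : F} (hg : g ≠ 0)
    (h0 : ∀ v : Place K F, 0 < v.ord u → v.ord g = 0) :
    (∏ v ∈ Fermat.Agent.S27.zeros K u, val v g ^ (v.ord u).toNat) ≠ 0 := by
  refine Finset.prod_ne_zero_iff.mpr (fun v hv => pow_ne_zero _ ?_)
  exact val_ne_zero hg (h0 v (Fermat.Agent.S27.mem_zeros.mp hv))

/-- (R6) TASK S15/W-R6: the transcendental case. -/
theorem weil_reciprocity_of_transcendental [CharZero K] {x g : F} (hx : Transcendental K x)
    (hg : g ≠ 0) (h : Disj K x g) :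
    evalD x (divisorOf (Ω := K) g) = evalD g (divisorOf (Ω := K) x) := by
  have h0 : ∀ v : Place K F, 0 < v.ord x → v.ord g = 0 := fun v hv =>
    (h v).resolve_left hv.ne'
  have h0' : ∀ v : Place K F, 0 < v.ord x⁻¹ → v.ord g = 0 := fun v hv =>
    (h v).resolve_left (by rw [v.ord_inv] at hv; omega)
  have hxi : Transcendental K x⁻¹ := Fermat.Agent.S26.transcendental_inv hx
  obtain ⟨G, w, hG, hw, hw0, hR, hmult⟩ := exists_norm_data hx hg h0
  set n := Module.finrank K⟮x⟯ F with hn
  set R := algebraMap K⟮x⟯ F (Algebra.norm K⟮x⟯ g) with hRdef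
  set a0 := ∏ v ∈ Fermat.Agent.S27.zeros K x, val v g ^ (v.ord x).toNat with ha0
  set a1 := ∏ v ∈ Fermat.Agent.S27.zeros K x⁻¹, val v g ^ (v.ord x⁻¹).toNat with ha1
  have ha0' : a0 ≠ 0 := R6_prod_ne_zero hg h0
  have ha1' : a1 ≠ 0 := R6_prod_ne_zero hg h0'
  have hR' : R * aeval x (w ^ n) = aeval x G := by rw [map_pow]; exact hR
  obtain ⟨v0, hv0⟩ := R6_exists_zero hx
  obtain ⟨v1, hv1⟩ := R6_exists_zero hxi
  have e0 : G.eval 0 = a0 * w.eval 0 ^ n := by
    have := eval_zero_of_van_at_zero hv0 hR' (van_norm_sub hx hg h0 hv0)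
    rwa [eval_pow] at this
  have hv1' : v1.ord x < 0 := by rw [v1.ord_inv] at hv1; omega
  have hvan1 : Van v1 (R - algebraMap K F a1) := by
    have := van_norm_sub hxi hg h0' hv1
    rwa [norm_adjoin_inv] at this
  obtain ⟨e1, e2⟩ := leadingCoeff_of_van_at_pole hv1' hG (pow_ne_zero n hw) hR' ha1' hvan1
  rw [natDegree_pow] at e1
  rw [leadingCoeff_pow] at e2
  have hG0 : G.eval 0 ≠ 0 := by
    rw [e0]
    exact mul_ne_zero ha0' (pow_ne_zero _ hw0)
  have hlw : w.leadingCoeff ≠ 0 := leadingCoeff_ne_zero.mpr hw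
  have hfin := evalD_divisorOf_eq_div (g := g) hx
  rw [← ha0, ← ha1] at hfin
  rw [evalD_divisorOf_eq_finprod hx hg h, hfin]
  have hpt : ∀ c : K, c ^ (∑ᶠ (v : Place K F) (_ : Over x c v), v.ord g)
      = c ^ G.rootMultiplicity c / (c ^ w.rootMultiplicity c) ^ n := by
    intro c
    rw [← hmult c]
    by_cases hc : c = 0
    · subst hc
      have r1 : G.rootMultiplicity 0 = 0 := rootMultiplicity_eq_zero hG0
      have r2 : w.rootMultiplicity 0 = 0 := rootMultiplicity_eq_zero hw0
      rw [r1, r2]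
      simp
    · rw [zpow_sub₀ hc, zpow_natCast, ← pow_mul, mul_comm (w.rootMultiplicity c) n]
      congr 1
      rw [← zpow_natCast]
      push_cast
      rfl
  rw [finprod_congr hpt, finprod_div_distrib (R6_finite_mulSupport G hG)
    ((R6_finite_mulSupport w hw).subset (by
      intro c hc
      rw [Function.mem_mulSupport] at hc ⊢
      intro h1
      apply hc
      rw [h1, one_pow])),
    ← finprod_pow (R6_finite_mulSupport w hw), finprod_pow_rootMultiplicity hG0,
    finprod_pow_rootMultiplicity hw0, e0, e1, e2]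
  have hs : ((-1 : K) ^ w.natDegree) ≠ 0 := pow_ne_zero _ (by norm_num)
  have key : ∀ s W L : K, s ≠ 0 → W ≠ 0 → L ≠ 0 →
      s ^ n * (a0 * W ^ n) / (a1 * L ^ n) / (s * W / L) ^ n = a0 / a1 := by
    intro s W L hs hW hL
    rw [div_pow, mul_pow]
    field_simp
  rw [pow_mul']
  exact key _ _ _ hs hw0 hlw

/-- **Weil reciprocity** (disjoint supports). -/
theorem weil_reciprocity [CharZero K] {f g : F} (hf : f ≠ 0) (hg : g ≠ 0) (h : Disj K f g) :
    evalD f (divisorOf (Ω := K) g) = evalD g (divisorOf (Ω := K) f) := by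
  by_cases hx : Transcendental K f
  · exact weil_reciprocity_of_transcendental hx hg h
  · have halg : IsAlgebraic K f := by
      rwa [Transcendental, not_not] at hx
    obtain ⟨c, rfl⟩ := Fermat.Agent.S24.FF.DegOne.exists_algebraMap_eq_of_isAlgebraic K halg
    have hc : c ≠ 0 := by
      rintro rfl
      exact hf (map_zero _)
    have hdiv : divisorOf (Ω := K) (algebraMap K F c) = 0 := by
      ext v
      rw [divisorOf_apply, Finsupp.coe_zero, Pi.zero_apply]
      exact ord_eq_zero_of_isAlgebraic v halg hf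
    rw [evalD_algebraMap hc, degree_divisorOf, zpow_zero, hdiv, evalD_zero]

end Fermat.Agent.S15.W
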